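/-
S19, block T (descent of a local function order to `ℤ_(ℓ)`).  Owner: helper92.

Input : a valuation ring `A` of `ℚ̄` over `ℓ`, a Frobenius `Fr` at `A`, and a set `SS` of `A`-valued
functions on the finite Galois module `X` which are inertia-equivariant, permuted by `Fr`, separate
points, and such that `φ (x + y)` is `ℓ`-adically approximated by polynomials (coefficients in `A`)
in the functions of `SS` evaluated at `x` and at `y`.
Output (`T/Main.lean`) : `HasHopfOrder ℓ X`, with `H := {equivariant functions} ∩ A[SS]`.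
-/
import Fermat.Agent.S19.Defs
import Fermat.Prelude.Def_EllipticCurve_FrobeniusTrace

set_option autoImplicit false

namespace Fermat.Agent.S19

/-- the semilinear action of Galois on functions -/
noncomputable def gconj {Y : Type} [MulAction Gal Y] (σ : Gal) (φ : Y → Qb) : Y → Qb :=
  fun y => σ (φ (σ⁻¹ • y))

/-- Galois-equivariant functions -/
def IsEqv {Y : Type} [MulAction Gal Y] (φ : Y → Qb) : Prop :=
  ∀ (σ : Gal) (y : Y), φ (σ • y) = σ (φ y)

/-- `z ∈ ℓ ^ M • A` -/
def DivBy (A : ValuationSubring Qb) (ℓ M : ℕ) (z : Qb) : Prop :=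
  ∃ a ∈ A, z = (ℓ : Qb) ^ M * a

/-- the action on `Y` factors through a finite quotient of the Galois group -/
def IsSmoothAct (Y : Type) [MulAction Gal Y] : Prop :=
  ∃ L : IntermediateField ℚ Qb, FiniteDimensional ℚ L ∧
    ∀ σ ∈ L.fixingSubgroup, ∀ y : Y, σ • y = y

/-- `σ` maps `A ∩ L` into `A` -/
def StabAt (A : ValuationSubring Qb) (L : IntermediateField ℚ Qb) (σ : Gal) : Prop :=
  ∀ a ∈ L, a ∈ A → σ a ∈ A

/-- pull-backs of a set of functions along the two projections -/
def pull {X : Type} (SS : Set (X → Qb)) : Set (X × X → Qb) :=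
  {ψ | ∃ φ ∈ SS, ψ = (fun q => φ q.1) ∨ ψ = (fun q => φ q.2)}

/-- invariant under inertia at `A` and under `Fr` -/
def IsLocInv {Y : Type} [MulAction Gal Y] (A : ValuationSubring Qb) (Fr : Gal) (ψ : Y → Qb) : Prop :=
  (∀ σ ∈ A.inertiaSubgroupIn ℚ, gconj σ ψ = ψ) ∧ gconj Fr ψ = ψ

end Fermat.Agent.S19
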