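/-
S19-T1 (block T, architect helper92).  Elementary facts on a valuation subring `A` of `ℚ̄` over `ℓ`.
Sketches.
* `exists_pow_divBy` (rank one): `a ∈ m_A` is a root of a primitive `f ∈ ℤ[X]`; let `i₀` be the least
  index with `ℓ ∤ f.coeff i₀` (so `f.coeff i₀` is a unit of `A`; `i₀ ≠ 0` else a unit lies in `m_A`).
  Then `a^i₀ * (c_{i₀} + a * (..)) = - ∑_{i<i₀} c_i a^i ∈ ℓ A` and the bracket is a unit of `A`.
* `exists_pow_mul_mem`: `d * z` is integral over `ℤ` for some `d ≠ 0` (`exists_integral_multiple`),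
  `d = ℓ^c * d'`, `ℓ ∤ d'`, `d'` is a unit of `A` (Bezout with `ℓ ∈ m_A`); integral elements lie in `A`
  (`Fermat.Agent.Lib.Frobenius.mem_of_isIntegral_int`).
* `algebraMap_rat_mem_iff`: `q = n/d` in lowest terms; if `ℓ ∤ d`, `d` is a unit of `A`; if `ℓ ∣ d` then `ℓ ∤ n`
  and `q ∈ A` would make the unit `n = q * d` a nonunit.
-/
import Fermat.Agent.S19.T.Defs
import Fermat.Agent.Lib.Frobenius

set_option autoImplicit false
set_option linter.unusedSectionVars false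

namespace Fermat.Agent.S19

open scoped Pointwise

variable {ℓ : ℕ} [Fact ℓ.Prime] {A : ValuationSubring Qb}

theorem DivBy.mem {M : ℕ} {z : Qb} (h : DivBy A ℓ M z) : z ∈ A := by
  obtain ⟨a, ha, rfl⟩ := h
  exact mul_mem (pow_mem (natCast_mem A ℓ) M) ha
theorem DivBy.zero (M : ℕ) : DivBy A ℓ M 0 := ⟨0, zero_mem A, by rw [mul_zero]⟩
theorem DivBy.add {M : ℕ} {z w : Qb} (hz : DivBy A ℓ M z) (hw : DivBy A ℓ M w) :
    DivBy A ℓ M (z + w) := by
  obtain ⟨a, ha, rfl⟩ := hz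
  obtain ⟨b, hb, rfl⟩ := hw
  exact ⟨a + b, add_mem ha hb, by ring⟩
theorem DivBy.neg {M : ℕ} {z : Qb} (hz : DivBy A ℓ M z) : DivBy A ℓ M (-z) := by
  obtain ⟨a, ha, rfl⟩ := hz
  exact ⟨-a, neg_mem ha, by ring⟩
theorem DivBy.sub {M : ℕ} {z w : Qb} (hz : DivBy A ℓ M z) (hw : DivBy A ℓ M w) :
    DivBy A ℓ M (z - w) := by
  rw [sub_eq_add_neg]
  exact hz.add hw.neg
theorem DivBy.sum {ι : Type} (s : Finset ι) {M : ℕ} {z : ι → Qb} (hz : ∀ i ∈ s, DivBy A ℓ M (z i)) :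
    DivBy A ℓ M (∑ i ∈ s, z i) :=
  Finset.sum_induction z (DivBy A ℓ M) (fun _ _ h1 h2 => h1.add h2) (DivBy.zero M) hz
theorem DivBy.mul_left {M : ℕ} {z a : Qb} (ha : a ∈ A) (hz : DivBy A ℓ M z) :
    DivBy A ℓ M (a * z) := by
  obtain ⟨b, hb, rfl⟩ := hz
  exact ⟨a * b, mul_mem ha hb, by ring⟩
theorem DivBy.mono {M M' : ℕ} (h : M' ≤ M) {z : Qb} (hz : DivBy A ℓ M z) : DivBy A ℓ M' z := by
  obtain ⟨b, hb, rfl⟩ := hz
  obtain ⟨k, rfl⟩ := Nat.exists_eq_add_of_le h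
  exact ⟨(ℓ : Qb) ^ k * b, mul_mem (pow_mem (natCast_mem A ℓ) k) hb, by rw [pow_add]; ring⟩
theorem divBy_zero_iff {z : Qb} : DivBy A ℓ 0 z ↔ z ∈ A :=
  ⟨fun h => h.mem, fun h => ⟨z, h, by rw [pow_zero, one_mul]⟩⟩
/-- `ℓ^c * z ∈ A` and `w ∈ ℓ^(M+c) A` give `z * w ∈ ℓ^M A` -/
theorem DivBy.mul_of_pow_mul_mem {M c : ℕ} {z w : Qb} (hz : (ℓ : Qb) ^ c * z ∈ A)
    (hw : DivBy A ℓ (M + c) w) : DivBy A ℓ M (z * w) := by
  obtain ⟨b, hb, rfl⟩ := hw
  exact ⟨(ℓ : Qb) ^ c * z * b, mul_mem hz hb, by rw [pow_add]; ring⟩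
/-- powers -/
theorem DivBy.pow {z : Qb} (hz : DivBy A ℓ 1 z) (M : ℕ) : DivBy A ℓ M (z ^ M) := by
  obtain ⟨b, hb, rfl⟩ := hz
  exact ⟨b ^ M, pow_mem hb M, by rw [pow_one, mul_pow]⟩

/-- an integer prime to `ℓ` is a unit of `A` -/
theorem val_valuation_intCast_eq_one (hA : A.LiesOverPrime ℓ) {c : ℤ} (hc : ¬ (ℓ : ℤ) ∣ c) :
    A.valuation (c : Qb) = 1 := by
  have hℓ : Prime (ℓ : ℤ) := Nat.prime_iff_prime_int.mp (Fact.out : ℓ.Prime)
  have hcop : IsCoprime (ℓ : ℤ) c := (Prime.coprime_iff_not_dvd hℓ).mpr hc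
  obtain ⟨s, t, hst⟩ := hcop
  have hle : A.valuation (c : Qb) ≤ 1 := (A.valuation_le_one_iff _).mpr (intCast_mem A c)
  refine le_antisymm hle (not_lt.mp fun hlt => ?_)
  have hℓlt : A.valuation (ℓ : Qb) < 1 := hA
  have h1 : (1 : Qb) = (s : Qb) * (ℓ : Qb) + (t : Qb) * (c : Qb) := by
    have := congrArg (fun n : ℤ => (n : Qb)) hst
    push_cast at this
    exact this.symm
  have hs : A.valuation (s : Qb) ≤ 1 := (A.valuation_le_one_iff _).mpr (intCast_mem A s)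
  have ht : A.valuation (t : Qb) ≤ 1 := (A.valuation_le_one_iff _).mpr (intCast_mem A t)
  have h2 : A.valuation ((s : Qb) * (ℓ : Qb) + (t : Qb) * (c : Qb)) < 1 := by
    refine A.valuation.map_add_lt ?_ ?_
    · rw [map_mul]
      exact lt_of_le_of_lt (mul_le_of_le_one_left' hs) hℓlt
    · rw [map_mul]
      exact lt_of_le_of_lt (mul_le_of_le_one_left' ht) hlt
  rw [← h1, map_one] at h2
  exact lt_irrefl _ h2

theorem val_inv_intCast_mem (hA : A.LiesOverPrime ℓ) {c : ℤ} (hc : ¬ (ℓ : ℤ) ∣ c) :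
    ((c : Qb))⁻¹ ∈ A := by
  rw [← A.valuation_le_one_iff, map_inv₀, val_valuation_intCast_eq_one hA hc, inv_one]

theorem val_isAlgebraic_int (a : Qb) : IsAlgebraic ℤ a := by
  have h : IsAlgebraic ℚ a := (AlgebraicClosure.isAlgebraic ℚ).isAlgebraic a
  exact (IsFractionRing.isAlgebraic_iff ℤ ℚ (AlgebraicClosure ℚ)).mpr h

/-- rank one -/
theorem exists_pow_divBy (hA : A.LiesOverPrime ℓ) {a : Qb} (ha : a ∈ A.nonunits) :
    ∃ n : ℕ, DivBy A ℓ 1 (a ^ n) := by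
  classical
  have haA : a ∈ A := (A.valuation_le_one_iff a).mp (le_of_lt ha)
  obtain ⟨f0, hf0, hf0a⟩ := val_isAlgebraic_int a
  set f := f0.primPart with hf
  have hfa : Polynomial.aeval a f = 0 :=
    Polynomial.aeval_primPart_eq_zero hf0 hf0a
  have hprim : f.IsPrimitive := f0.isPrimitive_primPart
  have hex : ∃ i, ¬ (ℓ : ℤ) ∣ f.coeff i := by
    by_contra hcon
    push Not at hcon
    have h1 : Polynomial.C (ℓ : ℤ) ∣ f := (Polynomial.C_dvd_iff_dvd_coeff _ _).mpr hcon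
    have h2 := hprim _ h1
    exact (Nat.prime_iff_prime_int.mp (Fact.out : ℓ.Prime)).not_isUnit h2
  set i₀ := Nat.find hex with hi₀
  have hi₀c : ¬ (ℓ : ℤ) ∣ f.coeff i₀ := Nat.find_spec hex
  have hmin : ∀ i < i₀, (ℓ : ℤ) ∣ f.coeff i := fun i hi => by
    have := Nat.find_min hex hi
    exact not_not.mp this
  -- every other term lies in `ℓ A + a ^ (i₀ + 1) A`
  have hterm : ∀ i ∈ (Finset.range (f.natDegree + 1)).erase i₀,
      ∃ x ∈ A, ∃ y ∈ A, (f.coeff i : Qb) * a ^ i = (ℓ : Qb) * x + a ^ (i₀ + 1) * y := by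
    intro i hi
    rw [Finset.mem_erase] at hi
    rcases lt_or_gt_of_ne hi.1 with hlt | hgt
    · obtain ⟨k, hk⟩ := hmin i hlt
      refine ⟨(k : Qb) * a ^ i, mul_mem (intCast_mem A k) (pow_mem haA i), 0, zero_mem A, ?_⟩
      rw [hk]
      push_cast
      ring
    · obtain ⟨k, rfl⟩ := Nat.exists_eq_add_of_lt hgt
      refine ⟨0, zero_mem A, (f.coeff (i₀ + k + 1) : Qb) * a ^ k,
        mul_mem (intCast_mem A _) (pow_mem haA k), ?_⟩
      ring
  have hsum : ∃ x ∈ A, ∃ y ∈ A, ∑ i ∈ (Finset.range (f.natDegree + 1)).erase i₀,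
      (f.coeff i : Qb) * a ^ i = (ℓ : Qb) * x + a ^ (i₀ + 1) * y := by
    refine Finset.sum_induction _
      (fun z => ∃ x ∈ A, ∃ y ∈ A, z = (ℓ : Qb) * x + a ^ (i₀ + 1) * y) ?_ ?_ hterm
    · rintro _ _ ⟨x, hx, y, hy, rfl⟩ ⟨x', hx', y', hy', rfl⟩
      exact ⟨x + x', add_mem hx hx', y + y', add_mem hy hy', by ring⟩
    · exact ⟨0, zero_mem A, 0, zero_mem A, by ring⟩
  obtain ⟨x, hx, y, hy, hxy⟩ := hsum
  have hi₀mem : i₀ ∈ Finset.range (f.natDegree + 1) := by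
    rw [Finset.mem_range, Nat.lt_succ_iff]
    apply Polynomial.le_natDegree_of_ne_zero
    intro h0
    exact hi₀c (by rw [h0]; exact dvd_zero _)
  have hexp : (f.coeff i₀ : Qb) * a ^ i₀ + ((ℓ : Qb) * x + a ^ (i₀ + 1) * y) = 0 := by
    rw [← hxy, Finset.add_sum_erase _ (fun i => (f.coeff i : Qb) * a ^ i) hi₀mem]
    rw [Polynomial.aeval_eq_sum_range] at hfa
    simpa [zsmul_eq_mul] using hfa
  -- the unit
  set u : Qb := (f.coeff i₀ : Qb) + a * y with hu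
  have hvu : A.valuation u = 1 := by
    have h1 := val_valuation_intCast_eq_one hA hi₀c
    have h2 : A.valuation (a * y) < A.valuation (f.coeff i₀ : Qb) := by
      rw [h1, map_mul]
      exact lt_of_le_of_lt (mul_le_of_le_one_right' ((A.valuation_le_one_iff y).mpr hy)) ha
    rw [hu, A.valuation.map_add_eq_of_lt_left h2, h1]
  have hu0 : u ≠ 0 := by
    intro h0
    rw [h0, map_zero] at hvu
    exact zero_ne_one hvu
  have huinv : u⁻¹ ∈ A := by
    rw [← A.valuation_le_one_iff, map_inv₀, hvu, inv_one]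
  refine ⟨i₀, -(x * u⁻¹), neg_mem (mul_mem hx huinv), ?_⟩
  have h3 : a ^ i₀ * u = -((ℓ : Qb) * x) := by
    rw [hu]
    linear_combination hexp
  rw [pow_one]
  field_simp
  linear_combination h3

/-- bounded denominators -/
theorem exists_pow_mul_mem (hA : A.LiesOverPrime ℓ) (z : Qb) : ∃ c : ℕ, (ℓ : Qb) ^ c * z ∈ A := by
  obtain ⟨d, hd, hdz⟩ := (val_isAlgebraic_int z).exists_integral_multiple
  have hℓ : Prime (ℓ : ℤ) := Nat.prime_iff_prime_int.mp (Fact.out : ℓ.Prime)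
  have hfin : FiniteMultiplicity (ℓ : ℤ) d :=
    FiniteMultiplicity.of_prime_left hℓ hd
  obtain ⟨d', hd', hnd⟩ := hfin.exists_eq_pow_mul_and_not_dvd
  refine ⟨multiplicity (ℓ : ℤ) d, ?_⟩
  have h1 : (d : Qb) * z ∈ A := by
    have := Fermat.Agent.Lib.Frobenius.mem_of_isIntegral_int A hdz
    rwa [zsmul_eq_mul] at this
  have h2 := val_inv_intCast_mem hA hnd
  have hd'0 : (d' : Qb) ≠ 0 := by
    intro h0
    apply hnd
    have : d' = 0 := by exact_mod_cast h0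
    rw [this]
    exact dvd_zero _
  have h3 : (ℓ : Qb) ^ multiplicity (ℓ : ℤ) d * z = (d' : Qb)⁻¹ * ((d : Qb) * z) := by
    have h4 : (d : Qb) = (ℓ : Qb) ^ multiplicity (ℓ : ℤ) d * (d' : Qb) := by
      conv_lhs => rw [hd']
      push_cast
      ring
    rw [h4]
    field_simp
  rw [h3]
  exact mul_mem h2 h1

theorem exists_pow_mul_mem_finite (hA : A.LiesOverPrime ℓ) {ι : Type} [Finite ι] (z : ι → Qb) :
    ∃ c : ℕ, ∀ i, (ℓ : Qb) ^ c * z i ∈ A := by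
  classical
  have := Fintype.ofFinite ι
  choose c hc using fun i => exists_pow_mul_mem hA (z i)
  refine ⟨∑ i, c i, fun i => ?_⟩
  obtain ⟨k, hk⟩ := Nat.exists_eq_add_of_le
    (Finset.single_le_sum (f := c) (fun _ _ => Nat.zero_le _) (Finset.mem_univ i))
  rw [hk, pow_add, mul_comm ((ℓ : Qb) ^ c i), mul_assoc]
  exact mul_mem (pow_mem (natCast_mem A ℓ) k) (hc i)

/-- `A ∩ ℚ = ℤ_(ℓ)` -/
theorem algebraMap_rat_mem_iff (hA : A.LiesOverPrime ℓ) (q : ℚ) :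
    algebraMap ℚ Qb q ∈ A ↔ q ∈ Rl ℓ := by
  have hℓ : ℓ.Prime := Fact.out
  have hq : algebraMap ℚ Qb q = (q.num : Qb) * ((q.den : ℤ) : Qb)⁻¹ := by
    conv_lhs => rw [← Rat.num_div_den q]
    rw [map_div₀, map_intCast, map_natCast, div_eq_mul_inv]
    push_cast
    rfl
  show _ ↔ q.den.Coprime ℓ
  constructor
  · intro h
    by_contra hcop
    have hdvd : ℓ ∣ q.den := by
      by_contra hnd
      exact hcop ((Nat.Prime.coprime_iff_not_dvd hℓ).mpr hnd).symm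
    have hnum : ¬ (ℓ : ℤ) ∣ q.num := by
      intro hn
      have h1 : ℓ ∣ q.num.natAbs := Int.natCast_dvd.mp hn
      have h2 := Nat.dvd_gcd h1 hdvd
      rw [q.reduced] at h2
      exact hℓ.one_lt.ne' (Nat.dvd_one.mp h2)
    have hv1 := val_valuation_intCast_eq_one hA hnum
    obtain ⟨k, hk⟩ := hdvd
    have hvd : A.valuation (((q.den : ℤ) : Qb)) < 1 := by
      rw [hk]
      push_cast
      rw [map_mul]
      exact lt_of_le_of_lt (mul_le_of_le_one_right' ((A.valuation_le_one_iff _).mpr (natCast_mem A k))) hA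
    have hden0 : (((q.den : ℤ) : Qb)) ≠ 0 := by
      have := q.den_ne_zero
      exact_mod_cast this
    have hle := (A.valuation_le_one_iff _).mpr h
    rw [hq, map_mul, hv1, one_mul, map_inv₀] at hle
    have hpos : A.valuation (((q.den : ℤ) : Qb)) ≠ 0 := (A.valuation.ne_zero_iff).mpr hden0
    have h5 : 1 ≤ A.valuation (((q.den : ℤ) : Qb)) := by
      rwa [inv_le_one₀ (zero_lt_iff.mpr hpos)] at hle
    exact absurd hvd (not_lt.mpr h5)
  · intro hcop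
    have hnd : ¬ (ℓ : ℤ) ∣ (q.den : ℤ) := by
      intro h
      have h1 : ℓ ∣ q.den := by exact_mod_cast h
      exact (Nat.Prime.coprime_iff_not_dvd hℓ).mp hcop.symm h1
    rw [hq]
    exact mul_mem (intCast_mem A _) (val_inv_intCast_mem hA hnd)

end Fermat.Agent.S19
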