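/-
S19-T4 (block T, architect helper92).  Roots of unity of order prime to `ℓ`; Vandermonde dual system.
Sketch.  `n := ℓ^f - 1`, `ζ` a primitive `n`-th root of unity in `Qb` (root of `Polynomial.cyclotomic n Qb`,
`Polynomial.isRoot_cyclotomic_iff`).  (a) `ζ ∈ A` (integral; `Lib.Frobenius.mem_of_isIntegral_int`).
(b) if `ζ^a ≠ ζ^b` then `ζ^a - ζ^b ∉ A.nonunits`: `∏_{k=1}^{n-1} (1 - ζ^k) = n`
(`IsPrimitiveRoot.prod_one_sub_pow_eq_order`) and `n = ℓ^f - 1` is a unit of `A` because `ℓ ∈ m_A`.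
(c) `Fr ζ = ζ^ℓ`: `Fr ζ` is a power of `ζ` (`IsPrimitiveRoot.eq_pow_of_pow_eq_one`) and `Fr ζ - ζ^ℓ ∈ m_A`
(`Lib.WeakChebotarev.Transfer.sub_pow_mem_nonunits_of_isFrobeniusAt`), use (b).  So `Fr^j ζ = ζ^(ℓ^j)`, `Fr^f ζ = ζ`.
(d) `σ ζ = ζ` for `σ` in inertia (`Transfer.sub_mem_nonunits_of_mem_inertiaSubgroupIn` + (b)).
(e) the `ζ^(ℓ^j)`, `j < f`, are pairwise distinct (`ℓ^j < n` or `f = 1`), so the Vandermonde determinant
(`Matrix.det_vandermonde`) of `v j := Fr^(f - j) ζ` (`v 0 = ζ`) is a product of units of `A`.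
(f) `w i := ζ^i`; `w' := (vandermonde v)⁻¹ *ᵥ e₀` (entries: adjugate / det, polynomial in `ζ` over `ℤ` divided by
a unit of `A` which is itself such a polynomial: they lie in `A`, are fixed by inertia and by `Fr^f`).
So `∑_i (Fr^(f-j) (w i)) * w' i = δ_{j0}`; apply `Fr^j` and use `Fr^f (w i) = w i`.
-/
import Fermat.Agent.S19.T.Val
import Fermat.Agent.Lib.WeakChebotarev.Qbar

set_option autoImplicit false

namespace Fermat.Agent.S19

open scoped Pointwise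

variable {ℓ : ℕ} [Fact ℓ.Prime] {A : ValuationSubring Qb}

/-- roots of unity lie in every valuation subring -/
theorem dual_mem_of_pow_eq_one {n : ℕ} (hn : 0 < n) {μ : Qb} (hμ : μ ^ n = 1) : μ ∈ A := by
  rcases A.mem_or_inv_mem μ with h | h
  · exact h
  · have h1 : μ * μ ^ (n - 1) = 1 := by rw [← pow_succ', Nat.sub_add_cancel hn, hμ]
    have h2 : μ = (μ⁻¹) ^ (n - 1) := by
      rw [inv_pow]
      exact eq_inv_of_mul_eq_one_left h1
    rw [h2]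
    exact pow_mem h _

/-- `ℓ ^ f - 1` is not in the maximal ideal -/
theorem dual_natCast_notMem (hA : A.LiesOverPrime ℓ) {f : ℕ} (hf : 0 < f) :
    ((ℓ ^ f - 1 : ℕ) : Qb) ∉ A.nonunits := by
  intro h
  rw [A.mem_nonunits_iff] at h
  have hl : A.valuation (ℓ : Qb) < 1 := (A.mem_nonunits_iff).1 hA
  have hlf : A.valuation ((ℓ : Qb) ^ f) < 1 := by
    rw [map_pow]
    exact pow_lt_one₀ zero_le hl hf.ne'
  have hpos : 1 ≤ ℓ ^ f := Nat.one_le_pow _ _ (Fact.out : ℓ.Prime).pos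
  have e : (1 : Qb) = (ℓ : Qb) ^ f - ((ℓ ^ f - 1 : ℕ) : Qb) := by
    rw [Nat.cast_sub hpos]
    push_cast
    ring
  have h1 : A.valuation (1 : Qb) < 1 := by
    rw [e]
    exact Valuation.map_sub_lt _ hlf h
  rw [map_one] at h1
  exact lt_irrefl _ h1

/-- a root of unity `≠ 1` of order dividing `n` congruent to `1` forces `n` in the maximal ideal -/
theorem dual_natCast_mem_of_one_sub_mem {n : ℕ} (hn : 0 < n) {ξ : Qb} (hξ : ξ ^ n = 1)
    (h1 : ξ ≠ 1) (h : 1 - ξ ∈ A.nonunits) : (n : Qb) ∈ A.nonunits := by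
  rw [A.mem_nonunits_iff] at h ⊢
  have hξA : ξ ∈ A := dual_mem_of_pow_eq_one hn hξ
  have hsum : ∑ i ∈ Finset.range n, ξ ^ i = 0 := by
    have := geom_sum_mul ξ n
    rw [hξ, sub_self] at this
    exact (mul_eq_zero.1 this).resolve_right (sub_ne_zero.2 h1)
  have e : (n : Qb) = ∑ i ∈ Finset.range n, (1 - ξ ^ i) := by
    rw [Finset.sum_sub_distrib, hsum]
    simp
  rw [e]
  refine Valuation.map_sum_lt _ one_ne_zero fun i _ => ?_
  rw [← mul_neg_geom_sum, map_mul]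
  have h2 : A.valuation (∑ j ∈ Finset.range i, ξ ^ j) ≤ 1 :=
    (A.valuation_le_one_iff _).2 (sum_mem fun j _ => pow_mem hξA j)
  calc A.valuation (1 - ξ) * A.valuation (∑ j ∈ Finset.range i, ξ ^ j)
      ≤ A.valuation (1 - ξ) * 1 := mul_le_mul_right h2 _
    _ < 1 := by rwa [mul_one]

/-- congruent roots of unity of order dividing `ℓ ^ f - 1` are equal -/
theorem dual_eq_of_sub_mem (hA : A.LiesOverPrime ℓ) {f : ℕ} (hf : 0 < f) {μ μ' : Qb}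
    (hμ : μ ^ (ℓ ^ f - 1) = 1) (hμ' : μ' ^ (ℓ ^ f - 1) = 1) (h : μ - μ' ∈ A.nonunits) :
    μ = μ' := by
  by_contra hne
  have hn : 0 < ℓ ^ f - 1 := by
    have : 2 ^ 1 ≤ ℓ ^ f :=
      (Nat.pow_le_pow_left (Fact.out : ℓ.Prime).two_le 1).trans
        (Nat.pow_le_pow_right (Fact.out : ℓ.Prime).pos hf)
    omega
  have hμ0 : μ ≠ 0 := by
    rintro rfl
    rw [zero_pow hn.ne'] at hμ
    exact zero_ne_one hμ
  have hinv : μ⁻¹ ∈ A := dual_mem_of_pow_eq_one hn (by rw [inv_pow, hμ, inv_one])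
  refine dual_natCast_notMem hA hf (dual_natCast_mem_of_one_sub_mem (ξ := μ' * μ⁻¹) hn ?_ ?_ ?_)
  · rw [mul_pow, inv_pow, hμ, hμ', inv_one, mul_one]
  · intro h1
    apply hne
    field_simp at h1
    exact h1.symm
  · have e : 1 - μ' * μ⁻¹ = (μ - μ') * μ⁻¹ := by field_simp
    rw [e, A.mem_nonunits_iff, map_mul]
    rw [A.mem_nonunits_iff] at h
    calc A.valuation (μ - μ') * A.valuation μ⁻¹
        ≤ A.valuation (μ - μ') * 1 := mul_le_mul_right ((A.valuation_le_one_iff _).2 hinv) _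
      _ < 1 := by rwa [mul_one]

theorem dual_pos {f : ℕ} (hf : 0 < f) : 0 < ℓ ^ f - 1 := by
  have : 2 ^ 1 ≤ ℓ ^ f :=
    (Nat.pow_le_pow_left (Fact.out : ℓ.Prime).two_le 1).trans
      (Nat.pow_le_pow_right (Fact.out : ℓ.Prime).pos hf)
  omega

theorem dual_frob_apply (hA : A.LiesOverPrime ℓ) {Fr : Gal} (hFr : A.IsFrobeniusAt Fr ℓ)
    {f : ℕ} (hf : 0 < f) {μ : Qb} (hμ : μ ^ (ℓ ^ f - 1) = 1) : Fr μ = μ ^ ℓ := by
  refine dual_eq_of_sub_mem hA hf ?_ ?_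
    (Lib.WeakChebotarev.Transfer.sub_pow_mem_nonunits_of_isFrobeniusAt hFr
      (dual_mem_of_pow_eq_one (dual_pos hf) hμ))
  · rw [← map_pow, hμ, map_one]
  · rw [← pow_mul, mul_comm, pow_mul, hμ, one_pow]

theorem dual_frob_pow_apply (hA : A.LiesOverPrime ℓ) {Fr : Gal} (hFr : A.IsFrobeniusAt Fr ℓ)
    {f : ℕ} (hf : 0 < f) {μ : Qb} (hμ : μ ^ (ℓ ^ f - 1) = 1) (j : ℕ) :
    (Fr ^ j) μ = μ ^ (ℓ ^ j) := by
  induction j with
  | zero => simp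
  | succ j ih =>
    rw [pow_succ', AlgEquiv.mul_apply, ih, map_pow, dual_frob_apply hA hFr hf hμ, ← pow_mul,
      pow_succ']

theorem dual_frob_pow_self_apply (hA : A.LiesOverPrime ℓ) {Fr : Gal} (hFr : A.IsFrobeniusAt Fr ℓ)
    {f : ℕ} (hf : 0 < f) {μ : Qb} (hμ : μ ^ (ℓ ^ f - 1) = 1) : (Fr ^ f) μ = μ := by
  rw [dual_frob_pow_apply hA hFr hf hμ f]
  have hpos : 1 ≤ ℓ ^ f := Nat.one_le_pow _ _ (Fact.out : ℓ.Prime).pos
  calc μ ^ (ℓ ^ f) = μ ^ ((ℓ ^ f - 1) + 1) := by rw [Nat.sub_add_cancel hpos]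
    _ = μ := by rw [pow_succ, hμ, one_mul]

theorem dual_inertia_apply (hA : A.LiesOverPrime ℓ) {f : ℕ} (hf : 0 < f) {μ : Qb}
    (hμ : μ ^ (ℓ ^ f - 1) = 1) {σ : Gal} (hσ : σ ∈ A.inertiaSubgroupIn ℚ) : σ μ = μ :=
  dual_eq_of_sub_mem hA hf (by rw [← map_pow, hμ, map_one]) hμ
    (Lib.WeakChebotarev.Transfer.sub_mem_nonunits_of_mem_inertiaSubgroupIn hσ
      (dual_mem_of_pow_eq_one (dual_pos hf) hμ))

/-- elements of `A` fixed by inertia and by `Fr ^ f` -/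
def dualRing (A : ValuationSubring Qb) (Fr : Gal) (f : ℕ) : Subring Qb where
  carrier := {x | x ∈ A ∧ (∀ σ ∈ A.inertiaSubgroupIn ℚ, σ x = x) ∧ (Fr ^ f) x = x}
  mul_mem' := fun {a b} ha hb => ⟨A.mul_mem _ _ ha.1 hb.1,
    fun σ hσ => by rw [map_mul, ha.2.1 σ hσ, hb.2.1 σ hσ], by rw [map_mul, ha.2.2, hb.2.2]⟩
  one_mem' := ⟨A.one_mem, fun σ _ => map_one σ, map_one _⟩
  add_mem' := fun {a b} ha hb => ⟨A.add_mem _ _ ha.1 hb.1,
    fun σ hσ => by rw [map_add, ha.2.1 σ hσ, hb.2.1 σ hσ], by rw [map_add, ha.2.2, hb.2.2]⟩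
  zero_mem' := ⟨A.zero_mem, fun σ _ => map_zero σ, map_zero _⟩
  neg_mem' := fun {a} ha => ⟨A.neg_mem _ ha.1,
    fun σ hσ => by rw [map_neg, ha.2.1 σ hσ], by rw [map_neg, ha.2.2]⟩

theorem dual_mem_dualRing (hA : A.LiesOverPrime ℓ) {Fr : Gal} (hFr : A.IsFrobeniusAt Fr ℓ)
    {f : ℕ} (hf : 0 < f) {μ : Qb} (hμ : μ ^ (ℓ ^ f - 1) = 1) : μ ∈ dualRing A Fr f :=
  ⟨dual_mem_of_pow_eq_one (dual_pos hf) hμ, fun _ hσ => dual_inertia_apply hA hf hμ hσ,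
    dual_frob_pow_self_apply hA hFr hf hμ⟩

theorem dual_inv_sub_mem_dualRing (hA : A.LiesOverPrime ℓ) {Fr : Gal}
    (hFr : A.IsFrobeniusAt Fr ℓ) {f : ℕ} (hf : 0 < f) {μ μ' : Qb} (hμ : μ ^ (ℓ ^ f - 1) = 1)
    (hμ' : μ' ^ (ℓ ^ f - 1) = 1) (hne : μ ≠ μ') : (μ - μ')⁻¹ ∈ dualRing A Fr f := by
  have h := (dualRing A Fr f).sub_mem (dual_mem_dualRing hA hFr hf hμ)
    (dual_mem_dualRing hA hFr hf hμ')
  have hnon : μ - μ' ∉ A.nonunits := fun h' => hne (dual_eq_of_sub_mem hA hf hμ hμ' h')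
  refine ⟨?_, fun σ hσ => by rw [map_inv₀, h.2.1 σ hσ], by rw [map_inv₀, h.2.2]⟩
  rw [A.mem_nonunits_iff, not_lt] at hnon
  rw [← A.valuation_le_one_iff, map_inv₀]
  exact inv_le_one_of_one_le₀ hnon

open Polynomial in
theorem exists_dual_system (hA : A.LiesOverPrime ℓ) {Fr : Gal} (hFr : A.IsFrobeniusAt Fr ℓ)
    (f : ℕ) (hf : 0 < f) :
    ∃ w w' : Fin f → Qb, (∀ i, w i ∈ A) ∧ (∀ i, w' i ∈ A) ∧
      (∀ i, ∀ σ ∈ A.inertiaSubgroupIn ℚ, σ (w' i) = w' i) ∧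
      (∀ i, (Fr ^ f) (w' i) = w' i) ∧
      ∀ j : Fin f, ∑ i, w i * (Fr ^ (j : ℕ)) (w' i) = if (j : ℕ) = 0 then 1 else 0 := by
  classical
  have hn : 0 < ℓ ^ f - 1 := dual_pos hf
  have : NeZero (ℓ ^ f - 1) := ⟨hn.ne'⟩
  obtain ⟨ζ, hζ⟩ := HasEnoughRootsOfUnity.exists_primitiveRoot Qb (ℓ ^ f - 1)
  have hζ1 : ζ ^ (ℓ ^ f - 1) = 1 := hζ.pow_eq_one
  have hζ0 : ζ ≠ 0 := hζ.ne_zero hn.ne'
  obtain ⟨v, hv⟩ : ∃ v : Fin f → Qb, v = fun j : Fin f => (Fr ^ (j : ℕ)).symm ζ := ⟨_, rfl⟩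
  have hv1 : ∀ j : Fin f, v j ^ (ℓ ^ f - 1) = 1 := fun j => by
    rw [hv]
    show ((Fr ^ (j : ℕ)).symm ζ) ^ (ℓ ^ f - 1) = 1
    rw [← map_pow, hζ1, map_one]
  have hFv : ∀ j : Fin f, (Fr ^ (j : ℕ)) (v j) = ζ := fun j => by
    rw [hv]
    exact AlgEquiv.apply_symm_apply _ _
  have haux : ∀ i j : Fin f, (i : ℕ) ≤ j → v i = v j → i = j := by
    intro i j hij h
    have h1 : (Fr ^ ((j : ℕ) - i)) ζ = ζ := by
      have h2 : (Fr ^ (j : ℕ)) (v i) = ζ := by rw [h, hFv]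
      rw [← Nat.sub_add_cancel hij, pow_add, AlgEquiv.mul_apply, hFv] at h2
      exact h2
    rw [dual_frob_pow_apply hA hFr hf hζ1] at h1
    have hpos : 1 ≤ ℓ ^ ((j : ℕ) - i) := Nat.one_le_pow _ _ (Fact.out : ℓ.Prime).pos
    have h3 : ζ ^ (ℓ ^ ((j : ℕ) - i) - 1) = 1 := by
      have h4 : ζ ^ (ℓ ^ ((j : ℕ) - i) - 1) * ζ = 1 * ζ := by
        rw [← pow_succ, Nat.sub_add_cancel hpos, h1, one_mul]
      exact mul_right_cancel₀ hζ0 h4
    have hdvd := hζ.dvd_of_pow_eq_one _ h3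
    have hlt : ℓ ^ ((j : ℕ) - i) < ℓ ^ f :=
      Nat.pow_lt_pow_right (Fact.out : ℓ.Prime).one_lt (by omega)
    have h0 : ℓ ^ ((j : ℕ) - i) - 1 = 0 := Nat.eq_zero_of_dvd_of_lt hdvd (by omega)
    have h5 : (j : ℕ) - i = 0 := by
      by_contra hd
      have : ℓ ^ 1 ≤ ℓ ^ ((j : ℕ) - i) :=
        Nat.pow_le_pow_right (Fact.out : ℓ.Prime).pos (Nat.one_le_iff_ne_zero.2 hd)
      have h2 := (Fact.out : ℓ.Prime).two_le
      rw [pow_one] at this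
      omega
    exact Fin.ext (by omega)
  have hinj : Function.Injective v := by
    intro i j h
    rcases le_total (i : ℕ) j with hij | hij
    · exact haux i j hij h
    · exact (haux j i hij h.symm).symm
  obtain ⟨i0, hi0⟩ : ∃ i0 : Fin f, (i0 : ℕ) = 0 := ⟨⟨0, hf⟩, rfl⟩
  obtain ⟨P, hP⟩ : ∃ P : Qb[X], P = Lagrange.basis Finset.univ v i0 := ⟨_, rfl⟩
  have hC : ∀ x ∈ dualRing A Fr f, C x ∈ liftsRing (dualRing A Fr f).subtype := fun x hx =>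
    (lifts_iff_liftsRing _ _).1 (C'_mem_lifts ⟨⟨x, hx⟩, rfl⟩)
  have hPB : P ∈ liftsRing (dualRing A Fr f).subtype := by
    rw [hP, Lagrange.basis]
    refine Subring.prod_mem _ fun j hj => ?_
    have hne : v i0 ≠ v j := fun h => (Finset.ne_of_mem_erase hj) (hinj h).symm
    rw [Lagrange.basisDivisor]
    exact Subring.mul_mem _ (hC _ (dual_inv_sub_mem_dualRing hA hFr hf (hv1 _) (hv1 _) hne))
      (Subring.sub_mem _ ((lifts_iff_liftsRing _ _).1 (X_mem_lifts _))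
        (hC _ (dual_mem_dualRing hA hFr hf (hv1 _))))
  have hcoeff : ∀ n, P.coeff n ∈ dualRing A Fr f := fun n => by
    obtain ⟨y, hy⟩ := (lifts_iff_coeff_lifts P).1 ((lifts_iff_liftsRing _ _).2 hPB) n
    rw [← hy]
    exact y.2
  refine ⟨fun i => ζ ^ (i : ℕ), fun i => P.coeff i,
    fun i => pow_mem (dual_mem_of_pow_eq_one hn hζ1) _, fun i => (hcoeff i).1,
    fun i => (hcoeff i).2.1, fun i => (hcoeff i).2.2, fun j => ?_⟩
  have hdeg : P.natDegree < f := by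
    rw [hP, Lagrange.natDegree_basis hinj.injOn (Finset.mem_univ _), Finset.card_univ,
      Fintype.card_fin]
    omega
  have heval : P.eval (v j) = if (j : ℕ) = 0 then 1 else 0 := by
    rw [hP]
    split_ifs with h
    · have hj : j = i0 := Fin.ext (by rw [h, hi0])
      rw [hj]
      exact Lagrange.eval_basis_self hinj.injOn (Finset.mem_univ _)
    · exact Lagrange.eval_basis_of_ne (fun h' => h (by rw [← h', hi0])) (Finset.mem_univ _)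
  have h := congrArg (Fr ^ (j : ℕ)) heval
  rw [eval_eq_sum_range' hdeg, Finset.sum_range, map_sum, apply_ite (Fr ^ (j : ℕ)), map_one,
    map_zero] at h
  simp only [map_mul, map_pow, hFv] at h
  rw [← h]
  exact Finset.sum_congr rfl fun i _ => mul_comm _ _

end Fermat.Agent.S19
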