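/-
S19-T2 (block T, architect helper92).  API of the semilinear action `gconj` on functions.
Sketches.
* `exists_level`: take `L₁ := L₀ ⊔ L_Y ⊔ adjoin ℚ (finite set of all values φ i y)` (finite dimensional:
  `IntermediateField.finiteDimensional_sup`, `IntermediateField.finiteDimensional_adjoin` with integrality of
  every element of `Qb`), then `L := IntermediateField.normalClosure ℚ L₁ Qb` (finite dimensional, normal,
  separable since char 0 => `IsGalois`); `fixingSubgroup` is antitone.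
  `Fermat.Agent.Lib.Frobenius.isGalois_rat / isIntegral_rat / isAlgClosure_rat` give the instances for `Qb / ℚ`.
* `gconj_congr`: `σ⁻¹ * τ` fixes `L` pointwise (L normal is not even needed for this), so acts trivially on `Y`,
  and `σ, τ` agree on the values.
* `exists_pow_gconj_eq`: with `L` from `exists_level`, `AlgEquiv.restrictNormalHom L σ` has finite order `f`
  in the finite group `L ≃ₐ[ℚ] L`, so `σ ^ f` is the identity on `L`; conclude with `gconj_congr`, `gconj_one`.
-/
import Fermat.Agent.S19.T.Defs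
import Fermat.Agent.Lib.Frobenius

set_option autoImplicit false

namespace Fermat.Agent.S19

variable {Y : Type} [MulAction Gal Y]

theorem gconj_apply (σ : Gal) (φ : Y → Qb) (y : Y) : gconj σ φ y = σ (φ (σ⁻¹ • y)) := rfl
theorem gconj_one (φ : Y → Qb) : gconj 1 φ = φ := by
  funext y
  simp [gconj_apply]
theorem gconj_mul (σ τ : Gal) (φ : Y → Qb) : gconj (σ * τ) φ = gconj σ (gconj τ φ) := by
  funext y
  simp [gconj_apply, mul_smul]
theorem gconj_pow_succ (σ : Gal) (n : ℕ) (φ : Y → Qb) :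
    gconj (σ ^ (n + 1)) φ = gconj σ (gconj (σ ^ n) φ) := by
  rw [pow_succ', gconj_mul]
theorem gconj_add (σ : Gal) (φ ψ : Y → Qb) : gconj σ (φ + ψ) = gconj σ φ + gconj σ ψ := by
  funext y
  simp [gconj_apply]
theorem gconj_sub (σ : Gal) (φ ψ : Y → Qb) : gconj σ (φ - ψ) = gconj σ φ - gconj σ ψ := by
  funext y
  simp [gconj_apply]
theorem gconj_mul_fun (σ : Gal) (φ ψ : Y → Qb) : gconj σ (φ * ψ) = gconj σ φ * gconj σ ψ := by
  funext y
  simp [gconj_apply]
theorem gconj_smul (σ : Gal) (c : Qb) (φ : Y → Qb) : gconj σ (c • φ) = σ c • gconj σ φ := by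
  funext y
  simp [gconj_apply]
theorem gconj_sum {ι : Type} (σ : Gal) (s : Finset ι) (φ : ι → Y → Qb) :
    gconj σ (∑ i ∈ s, φ i) = ∑ i ∈ s, gconj σ (φ i) := by
  funext y
  simp [gconj_apply, Finset.sum_apply]
theorem gconj_one_fun (σ : Gal) : gconj σ (1 : Y → Qb) = 1 := by
  funext y
  simp [gconj_apply]
theorem gconj_eq_self_iff (σ : Gal) (φ : Y → Qb) :
    gconj σ φ = φ ↔ ∀ y, φ (σ • y) = σ (φ y) := by
  constructor
  · intro h y
    have := congrFun h (σ • y)
    rw [gconj_apply, inv_smul_smul] at this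
    exact this.symm
  · intro h
    funext y
    rw [gconj_apply, ← h, smul_inv_smul]
theorem isEqv_iff_gconj (φ : Y → Qb) : IsEqv φ ↔ ∀ σ : Gal, gconj σ φ = φ := by
  constructor
  · intro h σ
    exact (gconj_eq_self_iff σ φ).2 (h σ)
  · intro h σ
    exact (gconj_eq_self_iff σ φ).1 (h σ)

/-- every finite family of functions on a finite smooth `G`-set has a finite Galois level `L`, which can be
taken as large as we like -/
theorem exists_level [Finite Y] (hY : IsSmoothAct Y) {ι : Type} [Finite ι] (φ : ι → Y → Qb)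
    (L₀ : IntermediateField ℚ Qb) [FiniteDimensional ℚ L₀] :
    ∃ L : IntermediateField ℚ Qb, FiniteDimensional ℚ L ∧ IsGalois ℚ L ∧ L₀ ≤ L ∧
      (∀ i y, φ i y ∈ L) ∧ (∀ σ ∈ L.fixingSubgroup, ∀ y : Y, σ • y = y) := by
  obtain ⟨LY, hLY, hfix⟩ := hY
  have := Fermat.Agent.Lib.Frobenius.isGalois_rat
  have := Fermat.Agent.Lib.Frobenius.isIntegral_rat
  set S : Set Qb := Set.range (fun q : ι × Y => φ q.1 q.2) with hS
  have hSfin : S.Finite := Set.finite_range _
  have : Finite S := hSfin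
  have : FiniteDimensional ℚ (IntermediateField.adjoin ℚ S) :=
    IntermediateField.finiteDimensional_adjoin (fun x _ => Algebra.IsIntegral.isIntegral x)
  set L₁ : IntermediateField ℚ Qb := L₀ ⊔ LY ⊔ IntermediateField.adjoin ℚ S with hL₁
  have : FiniteDimensional ℚ (L₀ ⊔ LY : IntermediateField ℚ Qb) :=
    IntermediateField.finiteDimensional_sup _ _
  have : FiniteDimensional ℚ L₁ := IntermediateField.finiteDimensional_sup _ _
  have hle : L₁ ≤ IntermediateField.normalClosure ℚ L₁ Qb := IntermediateField.le_normalClosure L₁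
  refine ⟨IntermediateField.normalClosure ℚ L₁ Qb, normalClosure.is_finiteDimensional ℚ L₁ Qb,
    IsGalois.normalClosure ℚ L₁ Qb, ?_, ?_, ?_⟩
  · exact (le_sup_left.trans le_sup_left).trans hle
  · intro i y
    apply hle
    apply (le_sup_right : IntermediateField.adjoin ℚ S ≤ L₁)
    exact IntermediateField.subset_adjoin ℚ S ⟨(i, y), rfl⟩
  · intro σ hσ y
    apply hfix σ _ y
    have : LY ≤ IntermediateField.normalClosure ℚ L₁ Qb :=
      (le_sup_right.trans le_sup_left).trans hle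
    exact IntermediateField.fixingSubgroup_antitone this hσ

/-- if `σ` and `τ` agree on `L` they act in the same way on functions of level `L` -/
theorem gconj_congr {L : IntermediateField ℚ Qb} [IsGalois ℚ L]
    (hL : ∀ σ ∈ L.fixingSubgroup, ∀ y : Y, σ • y = y) {φ : Y → Qb} (hφ : ∀ y, φ y ∈ L)
    {σ τ : Gal} (h : ∀ a ∈ L, σ a = τ a) : gconj σ φ = gconj τ φ := by
  funext y
  rw [gconj_apply, gconj_apply]
  have hmem : τ⁻¹ * σ ∈ L.fixingSubgroup := by
    rw [IntermediateField.mem_fixingSubgroup_iff]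
    intro a ha
    change τ⁻¹ (σ a) = a
    rw [h a ha]
    exact τ.symm_apply_apply a
  have h1 : σ⁻¹ • y = τ⁻¹ • y := by
    have h2 := hL _ hmem (σ⁻¹ • y)
    rw [mul_smul, smul_inv_smul] at h2
    exact h2.symm
  rw [h1]
  exact h _ (hφ _)

theorem apply_mem_level {L : IntermediateField ℚ Qb} [IsGalois ℚ L] (σ : Gal) {a : Qb}
    (ha : a ∈ L) : σ a ∈ L := by
  have h := AlgEquiv.restrictNormal_commutes σ L ⟨a, ha⟩
  have h' : σ a = ((AlgEquiv.restrictNormal σ L ⟨a, ha⟩ : L) : Qb) := h.symm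
  rw [h']
  exact (AlgEquiv.restrictNormal σ L ⟨a, ha⟩).2

theorem gconj_mem_level {L : IntermediateField ℚ Qb} [IsGalois ℚ L] {φ : Y → Qb}
    (hφ : ∀ y, φ y ∈ L) (σ : Gal) (y : Y) : gconj σ φ y ∈ L :=
  apply_mem_level σ (hφ _)

/-- finite orbits -/
theorem exists_pow_gconj_eq [Finite Y] (hY : IsSmoothAct Y) (σ : Gal) (φ : Y → Qb) :
    ∃ f : ℕ, 0 < f ∧ gconj (σ ^ f) φ = φ := by
  obtain ⟨L, hfd, hgal, -, hφ, hfix⟩ := exists_level hY (fun _ : Unit => φ) ⊥
  have hfin : Finite (L ≃ₐ[ℚ] L) := inferInstance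
  set r : L ≃ₐ[ℚ] L := AlgEquiv.restrictNormalHom L σ with hr
  refine ⟨orderOf r, orderOf_pos r, ?_⟩
  have h1 : AlgEquiv.restrictNormalHom L (σ ^ orderOf r) = 1 := by
    rw [map_pow, ← hr, pow_orderOf_eq_one]
  have h2 : ∀ a ∈ L, (σ ^ orderOf r) a = (1 : Gal) a := by
    intro a ha
    have h := AlgEquiv.restrictNormal_commutes (σ ^ orderOf r) L ⟨a, ha⟩
    have h3 : AlgEquiv.restrictNormal (σ ^ orderOf r) L = 1 := h1
    rw [h3] at h
    exact h.symm
  rw [gconj_congr hfix (hφ ()) h2, gconj_one]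

end Fermat.Agent.S19
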