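/-
S19-T7 (block T, architect helper92).  Coset representatives of `Gal(ℚ̄/ℚ) / Gal(ℚ̄/L)` and the trace of a function.
Sketch.  `AlgEquiv.restrictNormalHom L : Gal →* (L ≃ₐ[ℚ] L)` is surjective (`AlgEquiv.restrictNormalHom_surjective`) onto a
finite group; `n := Nat.card (L ≃ₐ[ℚ] L)`, `s := (a section) ∘ (Finite.equivFin _).symm`.  `σ` and `τ` agree on `L` iff they have
the same restriction (`AlgEquiv.restrictNormal_commutes`; see `Lib.WeakChebotarev.Transfer.apply_eq_of_restrictNormalHom_eq`).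
`isEqv_sum_gconj`: for `τ : Gal`, `i ↦ (the index of τ * s i)` is a bijection of `Fin n` (injective, finite) and
`gconj τ (gconj (s i) φ) = gconj (τ * s i) φ = gconj (s (π i)) φ` by `gconj_congr`; `Equiv.sum_comp`; `isEqv_iff_gconj`.
-/
import Fermat.Agent.S19.T.Conj
import Fermat.Agent.Lib.WeakChebotarev.Qbar

set_option autoImplicit false

namespace Fermat.Agent.S19

theorem reps_restrict_eq_iff (L : IntermediateField ℚ Qb) [Normal ℚ L] (σ τ : Gal) :
    AlgEquiv.restrictNormalHom L σ = AlgEquiv.restrictNormalHom L τ ↔ ∀ a ∈ L, σ a = τ a := by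
  constructor
  · intro h a ha
    exact Lib.WeakChebotarev.Transfer.apply_eq_of_restrictNormalHom_eq L h a ha
  · intro h
    refine AlgEquiv.ext fun x => Subtype.ext ?_
    have h1 := AlgEquiv.restrictNormal_commutes σ L x
    have h2 := AlgEquiv.restrictNormal_commutes τ L x
    exact h1.trans ((h x x.2).trans h2.symm)

theorem exists_reps (L : IntermediateField ℚ Qb) [FiniteDimensional ℚ L] [IsGalois ℚ L] :
    ∃ (n : ℕ) (s : Fin n → Gal), ∀ σ : Gal, ∃! i, ∀ a ∈ L, σ a = s i a := by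
  have := Lib.Frobenius.isGalois_rat
  have hsurj : Function.Surjective (AlgEquiv.restrictNormalHom L : Gal → (L ≃ₐ[ℚ] L)) :=
    AlgEquiv.restrictNormalHom_surjective Qb
  have hfin : Finite (L ≃ₐ[ℚ] L) := inferInstance
  let e := Finite.equivFin (L ≃ₐ[ℚ] L)
  refine ⟨Nat.card (L ≃ₐ[ℚ] L), fun i => Function.surjInv hsurj (e.symm i), fun σ => ?_⟩
  refine ⟨e (AlgEquiv.restrictNormalHom L σ), ?_, ?_⟩
  · show ∀ a ∈ L, σ a = _
    rw [← reps_restrict_eq_iff, Function.surjInv_eq hsurj, Equiv.symm_apply_apply]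
  · intro i hi
    have hi' : ∀ a ∈ L, σ a = Function.surjInv hsurj (e.symm i) a := hi
    rw [← reps_restrict_eq_iff, Function.surjInv_eq hsurj] at hi'
    rw [hi', Equiv.apply_symm_apply]

theorem isEqv_sum_gconj {Y : Type} [MulAction Gal Y]
    (L : IntermediateField ℚ Qb) [FiniteDimensional ℚ L] [IsGalois ℚ L]
    (hL : ∀ σ ∈ L.fixingSubgroup, ∀ y : Y, σ • y = y)
    {n : ℕ} (s : Fin n → Gal) (hs : ∀ σ : Gal, ∃! i, ∀ a ∈ L, σ a = s i a)
    (φ : Y → Qb) (hφ : ∀ y, φ y ∈ L) : IsEqv (∑ i, gconj (s i) φ) := by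
  rw [isEqv_iff_gconj]
  intro τ
  rw [gconj_sum]
  choose π hπ hπu using fun i => hs (τ * s i)
  have hinj : Function.Injective π := by
    intro i i' hii
    have h1 : ∀ a ∈ L, s i a = s i' a := by
      intro a ha
      have e1 := hπ i a ha
      have e2 := hπ i' a ha
      rw [hii] at e1
      have e3 : τ (s i a) = τ (s i' a) := e1.trans e2.symm
      exact τ.injective e3
    exact (hs (s i)).unique (fun a _ => rfl) h1
  have hbij : Function.Bijective π := Finite.injective_iff_bijective.mp hinj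
  have hterm : ∀ i, gconj τ (gconj (s i) φ) = gconj (s (π i)) φ := by
    intro i
    rw [← gconj_mul]
    exact gconj_congr hL hφ (hπ i)
  rw [Finset.sum_congr rfl fun i _ => hterm i]
  exact Equiv.sum_comp (Equiv.ofBijective π hbij) fun j => gconj (s j) φ

end Fermat.Agent.S19
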