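/-
S19-T8 (block T, architect helper92).  The approximate idempotent `e` cutting out the place `A ∩ L`.
Sketch.  (1) If `¬ StabAt A L σ` there is `b ∈ L`, integral over `ℤ`, `b ∉ m_A`, `σ b ∈ m_A`: take `b₀ ∈ L ∩ A` with `σ b₀ ∉ A`, write
`b₀ * b = c` with `b, c ∈ L` integral, `b ∉ m_A` (`Lib.Frobenius.exists_integral_fraction_of_isAlgebraic` in the FIELD `L` for
`A.comap (algebraMap L Qb)`); if `σ b ∉ m_A` then `σ b₀ = σ c / σ b ∈ A`.
(2) `a := ∏ b_{s i}` over the representatives `s i` (`exists_reps`) which are not `StabAt` (`StabAt` only depends on `σ|L`).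
`a ∈ L` is integral, `a ∉ m_A`, and `σ a ∈ m_A` for every `σ` which is not `StabAt`.
(3) the ring `𝓞 L ⧸ (ℓ^M)` is finite, so there is `N > 0` with `a^(2N) - a^N ∈ ℓ^M 𝓞 L` (pigeonhole: `a^i = a^(i+p)`, `N := p * (i+1)`).
`e := a^N`.  For every `σ`: `σ e * (σ e - 1) = ℓ^M * σ(integral) ∈ ℓ^M A`.
If `StabAt A L σ`: `e⁻¹ ∈ A ∩ L`, so `(σ e)⁻¹ ∈ A`: divide.  Otherwise `σ e ∈ m_A`, `σ e - 1` is a unit of `A`: divide.
-/
import Fermat.Agent.S19.T.Val
import Fermat.Agent.S19.T.Reps

set_option autoImplicit false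
set_option linter.style.haveILetI false

namespace Fermat.Agent.S19

open scoped Pointwise

/-- a power of an element of a finite monoid is idempotent -/
theorem crt_exists_idem {Mn : Type*} [Monoid Mn] [Finite Mn] (x : Mn) :
    ∃ N : ℕ, 0 < N ∧ x ^ N * x ^ N = x ^ N := by
  obtain ⟨i, j, hij, h⟩ := Finite.exists_ne_map_eq_of_infinite (fun n : ℕ => x ^ n)
  wlog hlt : i < j generalizing i j
  · exact this j i hij.symm h.symm (by omega)
  obtain ⟨p, rfl⟩ : ∃ p, j = i + p := ⟨j - i, by omega⟩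
  have hp : 0 < p := by omega
  have h' : x ^ i = x ^ (i + p) := h
  have h1 : ∀ t k : ℕ, x ^ (i + k + t * p) = x ^ (i + k) := by
    intro t
    induction t with
    | zero => intro k; simp
    | succ t ih =>
      intro k
      calc x ^ (i + k + (t + 1) * p) = x ^ (i + p) * x ^ (k + t * p) := by
            rw [← pow_add]; congr 1; ring
        _ = x ^ i * x ^ (k + t * p) := by rw [← h']
        _ = x ^ (i + k + t * p) := by rw [← pow_add]; congr 1; ring
        _ = _ := ih k
  refine ⟨p * (i + 1), by positivity, ?_⟩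
  have hle : i ≤ p * (i + 1) := by nlinarith
  obtain ⟨k, hk⟩ := Nat.exists_eq_add_of_le hle
  have h2 := h1 (i + 1) k
  rw [← hk, mul_comm (i + 1) p] at h2
  rw [← pow_add]
  exact h2

theorem crt_mem_nonunits_iff {K : Type*} [Field K] (B : ValuationSubring K) (x : K) :
    x ∈ B.nonunits ↔ x = 0 ∨ x⁻¹ ∉ B := by
  rw [ValuationSubring.mem_nonunits_iff]
  rcases eq_or_ne x 0 with rfl | hx
  · simp
  · rw [← B.valuation_le_one_iff, map_inv₀, or_iff_right hx, not_le]
    have h0 : 0 < B.valuation x := zero_lt_iff.mpr ((B.valuation.ne_zero_iff).mpr hx)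
    rw [one_lt_inv₀ h0]

theorem crt_inv_mem {K : Type*} [Field K] {B : ValuationSubring K} {x : K}
    (hx : x ∉ B.nonunits) : x⁻¹ ∈ B := by
  rw [crt_mem_nonunits_iff, not_or, not_not] at hx
  exact hx.2

theorem crt_mul_notMem_nonunits {K : Type*} [Field K] {B : ValuationSubring K} {x y : K}
    (hx : x ∉ B.nonunits) (hy : y ∉ B.nonunits) : x * y ∉ B.nonunits := by
  rw [crt_mem_nonunits_iff, not_or, not_not] at *
  exact ⟨mul_ne_zero hx.1 hy.1, by rw [mul_inv]; exact mul_mem hx.2 hy.2⟩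

theorem crt_mul_mem_nonunits {K : Type*} [Field K] {B : ValuationSubring K} {x y : K}
    (hx : x ∈ B.nonunits) (hy : y ∈ B) : x * y ∈ B.nonunits := by
  rw [ValuationSubring.mem_nonunits_iff] at *
  rw [map_mul]
  exact lt_of_le_of_lt (mul_le_of_le_one_right' ((B.valuation_le_one_iff y).mpr hy)) hx

variable {ℓ : ℕ} [Fact ℓ.Prime] {A : ValuationSubring Qb}

omit [Fact ℓ.Prime] in
/-- step (1) -/
theorem crt_exists_sep (L : IntermediateField ℚ Qb) (σ : Gal) (hσ : ¬ StabAt A L σ) :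
    ∃ b ∈ L, IsIntegral ℤ b ∧ b ∉ A.nonunits ∧ σ b ∈ A.nonunits := by
  unfold StabAt at hσ
  push Not at hσ
  obtain ⟨b₀, hb₀L, hb₀A, hσb₀⟩ := hσ
  have halg : IsAlgebraic ℤ (⟨b₀, hb₀L⟩ : L) := by
    have h : IsAlgebraic ℚ (⟨b₀, hb₀L⟩ : L) := by
      have h1 : IsAlgebraic ℚ b₀ := (AlgebraicClosure.isAlgebraic ℚ).isAlgebraic b₀
      exact (isAlgebraic_algebraMap_iff (algebraMap L Qb).injective).mp h1
    exact (IsFractionRing.isAlgebraic_iff ℤ ℚ L).mpr h
  obtain ⟨b, c, hb, hc, hbn, hbc⟩ :=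
    Fermat.Agent.Lib.Frobenius.exists_integral_fraction_of_isAlgebraic
      (A.comap (algebraMap L Qb)) (⟨b₀, hb₀L⟩ : L) hb₀A halg
  have hb' : IsIntegral ℤ (b : Qb) := map_isIntegral_int (algebraMap L Qb) hb
  have hc' : IsIntegral ℤ (c : Qb) := map_isIntegral_int (algebraMap L Qb) hc
  have hbn' : (b : Qb) ∉ A.nonunits := by
    rw [crt_mem_nonunits_iff, not_or, not_not] at hbn ⊢
    refine ⟨fun h => hbn.1 (Subtype.ext h), ?_⟩
    have := hbn.2
    rw [ValuationSubring.mem_comap, map_inv₀] at this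
    exact this
  have hbc' : b₀ * (b : Qb) = (c : Qb) := congrArg Subtype.val hbc
  refine ⟨b, b.2, hb', hbn', ?_⟩
  by_contra hcon
  apply hσb₀
  have h1 : (σ (b : Qb))⁻¹ ∈ A := crt_inv_mem hcon
  have h2 : σ (c : Qb) ∈ A :=
    Fermat.Agent.Lib.Frobenius.mem_of_isIntegral_int A (map_isIntegral_int σ hc')
  have hb0 : σ (b : Qb) ≠ 0 := by
    rw [crt_mem_nonunits_iff, not_or] at hcon
    exact hcon.1
  have h3 : σ b₀ = σ (c : Qb) * (σ (b : Qb))⁻¹ := by
    rw [← hbc', map_mul]
    field_simp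
  rw [h3]
  exact mul_mem h2 h1

theorem exists_crt (hA : A.LiesOverPrime ℓ)
    (L : IntermediateField ℚ Qb) [FiniteDimensional ℚ L] [IsGalois ℚ L] (M : ℕ) :
    ∃ e ∈ L, ∀ σ : Gal, (StabAt A L σ → DivBy A ℓ M (σ e - 1)) ∧
      (¬ StabAt A L σ → DivBy A ℓ M (σ e)) := by
  classical
  have hℓ : ℓ.Prime := Fact.out
  obtain ⟨n, s, hs⟩ := exists_reps L
  -- step (2)
  have hβ : ∀ i : Fin n, ∃ b ∈ L, IsIntegral ℤ b ∧ b ∉ A.nonunits ∧
      (¬ StabAt A L (s i) → s i b ∈ A.nonunits) := by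
    intro i
    by_cases hi : StabAt A L (s i)
    · refine ⟨1, L.one_mem, isIntegral_one, ?_, fun h => absurd hi h⟩
      rw [crt_mem_nonunits_iff, not_or, not_not]
      exact ⟨one_ne_zero, by rw [inv_one]; exact A.one_mem⟩
    · obtain ⟨b, h1, h2, h3, h4⟩ := crt_exists_sep L (s i) hi
      exact ⟨b, h1, h2, h3, fun _ => h4⟩
  choose β hβL hβint hβn hβs using hβ
  set a : Qb := ∏ i, β i with ha
  have haL : a ∈ L := prod_mem fun i _ => hβL i
  have haint : IsIntegral ℤ a := IsIntegral.prod _ fun i _ => hβint i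
  have han : a ∉ A.nonunits := by
    rw [ha]
    refine Finset.prod_induction β (fun z => z ∉ A.nonunits)
      (fun _ _ h1 h2 => crt_mul_notMem_nonunits h1 h2) ?_ (fun i _ => hβn i)
    rw [crt_mem_nonunits_iff, not_or, not_not]
    exact ⟨one_ne_zero, by rw [inv_one]; exact A.one_mem⟩
  have hσa : ∀ σ : Gal, ¬ StabAt A L σ → σ a ∈ A.nonunits := by
    intro σ hσ
    obtain ⟨i, hi, -⟩ := hs σ
    have hsi : ¬ StabAt A L (s i) := by
      intro h
      apply hσ
      intro x hxL hxA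
      rw [hi x hxL]
      exact h x hxL hxA
    have h1 : σ (β i) ∈ A.nonunits := by
      rw [hi _ (hβL i)]
      exact hβs i hsi
    rw [ha, map_prod, ← Finset.mul_prod_erase Finset.univ (fun j => σ (β j)) (Finset.mem_univ i)]
    refine crt_mul_mem_nonunits h1 (prod_mem fun j _ => ?_)
    exact Fermat.Agent.Lib.Frobenius.mem_of_isIntegral_int A (map_isIntegral_int σ (hβint j))
  -- step (3)
  haveI : NumberField L := { to_charZero := inferInstance, to_finiteDimensional := inferInstance }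
  have haint' : IsIntegral ℤ (⟨a, haL⟩ : L) :=
    (isIntegral_algebraMap_iff (algebraMap L Qb).injective).mp haint
  set a' : NumberField.RingOfIntegers L :=
    IsIntegralClosure.mk' (NumberField.RingOfIntegers L) (⟨a, haL⟩ : L) haint' with ha'
  have ha'c : algebraMap (NumberField.RingOfIntegers L) L a' = ⟨a, haL⟩ :=
    IsIntegralClosure.algebraMap_mk' _ _ _
  set I : Ideal (NumberField.RingOfIntegers L) :=
    Ideal.span {((ℓ : NumberField.RingOfIntegers L)) ^ M} with hI
  have hI0 : I ≠ ⊥ := by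
    rw [hI, Ne, Ideal.span_singleton_eq_bot]
    exact pow_ne_zero _ (Nat.cast_ne_zero.mpr hℓ.ne_zero)
  haveI : Finite (NumberField.RingOfIntegers L ⧸ I) := I.finiteQuotientOfFreeOfNeBot hI0
  obtain ⟨N, hN, hidem⟩ := crt_exists_idem (Ideal.Quotient.mk I a')
  have hmem : a' ^ N * a' ^ N - a' ^ N ∈ I := by
    rw [← Ideal.Quotient.eq_zero_iff_mem, map_sub, map_mul, map_pow, hidem, sub_self]
  obtain ⟨c, hc⟩ := Ideal.mem_span_singleton'.mp hmem
  let ψ : NumberField.RingOfIntegers L →+* Qb :=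
    (algebraMap L Qb).comp (algebraMap (NumberField.RingOfIntegers L) L)
  have hψa : ψ a' = a := by
    show algebraMap L Qb (algebraMap (NumberField.RingOfIntegers L) L a') = a
    rw [ha'c]
    rfl
  have hcint : IsIntegral ℤ (ψ c) :=
    map_isIntegral_int (algebraMap L Qb) (NumberField.RingOfIntegers.isIntegral_coe c)
  have hrel : a ^ N * a ^ N - a ^ N = (ℓ : Qb) ^ M * ψ c := by
    have h1 := congrArg ψ hc
    simp only [map_mul, map_sub, map_pow, map_natCast, hψa] at h1
    rw [← h1, mul_comm]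
  set e : Qb := a ^ N with he
  have heL : e ∈ L := pow_mem haL N
  have hdiv : ∀ σ : Gal, DivBy A ℓ M (σ e * (σ e - 1)) := by
    intro σ
    refine ⟨σ (ψ c),
      Fermat.Agent.Lib.Frobenius.mem_of_isIntegral_int A (map_isIntegral_int σ hcint), ?_⟩
    have h1 := congrArg σ hrel
    simp only [map_mul, map_sub, map_pow, map_natCast] at h1
    rw [← h1, he, map_pow]
    ring
  have hpow : ∀ k : ℕ, a ^ k ∉ A.nonunits := by
    intro k
    induction k with
    | zero =>
      rw [pow_zero, crt_mem_nonunits_iff, not_or, not_not]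
      exact ⟨one_ne_zero, by rw [inv_one]; exact A.one_mem⟩
    | succ k ih =>
      rw [pow_succ]
      exact crt_mul_notMem_nonunits ih han
  have hen : e ∉ A.nonunits := hpow N
  refine ⟨e, heL, fun σ => ⟨fun hσ => ?_, fun hσ => ?_⟩⟩
  · have h1 : σ e⁻¹ ∈ A := hσ _ (L.inv_mem heL) (crt_inv_mem hen)
    have he0 : σ e ≠ 0 := by
      rw [crt_mem_nonunits_iff, not_or] at hen
      exact (map_ne_zero σ).mpr hen.1
    have h2 : σ e - 1 = σ e⁻¹ * (σ e * (σ e - 1)) := by
      rw [map_inv₀]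
      field_simp
    rw [h2]
    exact (hdiv σ).mul_left h1
  · have h1 : σ e ∈ A.nonunits := by
      rw [he, map_pow]
      obtain ⟨k, rfl⟩ : ∃ k, N = k + 1 := ⟨N - 1, by omega⟩
      rw [pow_succ, mul_comm]
      refine crt_mul_mem_nonunits (hσa σ hσ) (pow_mem ?_ k)
      exact Fermat.Agent.Lib.Frobenius.mem_of_isIntegral_int A (map_isIntegral_int σ haint)
    have hv : A.valuation (σ e - 1) = 1 := by
      rw [ValuationSubring.mem_nonunits_iff] at h1
      rw [sub_eq_add_neg, add_comm]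
      have h3 : A.valuation (σ e) < A.valuation (-1 : Qb) := by
        rw [Valuation.map_neg, map_one]; exact h1
      rw [A.valuation.map_add_eq_of_lt_left h3, Valuation.map_neg, map_one]
    have hne : σ e - 1 ≠ 0 := by
      intro h0
      rw [h0, map_zero] at hv
      exact zero_ne_one hv
    have hinv : (σ e - 1)⁻¹ ∈ A := by
      rw [← A.valuation_le_one_iff, map_inv₀, hv, inv_one]
    have h2 : σ e = (σ e - 1)⁻¹ * (σ e * (σ e - 1)) := by
      field_simp
    rw [h2]
    exact (hdiv σ).mul_left hinv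

end Fermat.Agent.S19
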