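/-
S19-T6b (block T, architect helper92).  (Fin) an element of the decomposition group acts on the finite residue
field of `A ∩ L` as a power of Frobenius.
Sketch.  `k := IsLocalRing.ResidueField A` has characteristic `ℓ`.  `k_L :=` image of `A ∩ L` in `k`: a subfield, FINITE
(it is the image of `𝓞 L`, by `Lib.Frobenius.exists_integral_fraction_of_isAlgebraic` applied in the field `L` to
`A.comap (algebraMap L Qb)`, and `𝓞 L ⧸ P` is finite).  `σ` preserves `A ∩ L` (`L` is normal, `σ • A = A`) and induces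
a field automorphism of `k_L`, necessarily `x ↦ x^(ℓ^j)` (`FiniteField.bijective_frobeniusAlgEquivOfAlgebraic_pow`
with `K := ZMod ℓ`; or: a generator `g` of `k_Lˣ` is a root of `∏_{j<f} (T - g^(ℓ^j)) ∈ 𝔽_ℓ[T]`).
`Fr^j a ≡ a^(ℓ^j) mod m_A` by induction from `Lib.WeakChebotarev.Transfer.sub_pow_mem_nonunits_of_isFrobeniusAt`.
-/
import Fermat.Agent.S19.T.Defs
import Fermat.Agent.Lib.WeakChebotarev.Qbar

set_option autoImplicit false

namespace Fermat.Agent.S19

open scoped Pointwise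
open NumberField Fermat.Agent.Lib.WeakChebotarev.Transfer

/-- every ring endomorphism of a finite field is a power of Frobenius -/
theorem decompfin_hom_eq_frob_pow (F : Type*) [Field F] [Finite F] (ℓ : ℕ) [Fact ℓ.Prime]
    [CharP F ℓ] (f : F →+* F) : ∃ j : ℕ, ∀ x, f x = x ^ (ℓ ^ j) := by
  let _ := ZMod.algebra F ℓ
  let f' : F →ₐ[ZMod ℓ] F :=
    { f with
      commutes' := fun r =>
        RingHom.congr_fun (Subsingleton.elim (f.comp (algebraMap (ZMod ℓ) F)) (algebraMap _ _)) r }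
  obtain ⟨n, hn⟩ := (FiniteField.bijective_frobeniusAlgHom_pow (ZMod ℓ) F).2 f'
  refine ⟨n, fun x => ?_⟩
  have h1 : f x = f' x := rfl
  rw [h1, ← hn]
  simp [AlgHom.coe_pow, FiniteField.coe_frobeniusAlgHom, pow_iterate, ZMod.card]

section aux

variable {A : ValuationSubring Qb}

/-- powers of a Frobenius element -/
theorem decompfin_isFrobeniusAt_pow {ℓ : ℕ} {Fr : Gal} (hFr : A.IsFrobeniusAt Fr ℓ) (j : ℕ) :
    A.IsFrobeniusAt (Fr ^ j) (ℓ ^ j) := by
  obtain ⟨hdec, h⟩ := hFr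
  refine ⟨pow_mem hdec j, fun x => ?_⟩
  have h1 : (⟨Fr ^ j, pow_mem hdec j⟩ : A.decompositionSubgroup ℚ) =
      (⟨Fr, hdec⟩ : A.decompositionSubgroup ℚ) ^ j := rfl
  rw [h1]
  induction j generalizing x with
  | zero => simp
  | succ j ih => rw [pow_succ, mul_smul, h, ih (x ^ ℓ) rfl, ← pow_mul, pow_succ, mul_comm]

theorem decompfin_apply_mem {σ : Gal} (hσ : σ ∈ A.decompositionSubgroup ℚ) {x : Qb} (hx : x ∈ A) :
    σ x ∈ A := by
  have h1 : σ • A = A := hσ
  have h2 : σ • x ∈ σ • A := ValuationSubring.smul_mem_pointwise_smul σ x A hx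
  rw [h1] at h2
  exact h2

theorem decompfin_apply_mem_nonunits {σ : Gal} (hσ : σ ∈ A.decompositionSubgroup ℚ) {x : Qb}
    (hx : x ∈ A.nonunits) : σ x ∈ A.nonunits := by
  have h1 : σ⁻¹ • A = A := inv_mem hσ
  rw [← h1, mem_nonunits_smul_iff, inv_inv] at hx
  exact hx

theorem decompfin_sub_mem_nonunits {x y : Qb} (hx : x ∈ A.nonunits) (hy : y ∈ A.nonunits) :
    x - y ∈ A.nonunits := by
  rw [A.mem_nonunits_iff] at *
  exact Valuation.map_sub_lt _ hx hy

theorem decompfin_mul_mem_nonunits {x y : Qb} (hx : x ∈ A.nonunits) (hy : y ∈ A) :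
    x * y ∈ A.nonunits := by
  rw [A.mem_nonunits_iff] at *
  rw [map_mul]
  exact mul_lt_one_of_lt_of_le hx ((A.valuation_le_one_iff y).mpr hy)

variable {ℓ : ℕ} [Fact ℓ.Prime]

/-- the statement on the ring of integers of `L` -/
theorem decompfin_integers (hA : A.LiesOverPrime ℓ)
    (L : IntermediateField ℚ Qb) [FiniteDimensional ℚ L] [IsGalois ℚ L] {σ : Gal}
    (hσ : σ ∈ A.decompositionSubgroup ℚ) :
    ∃ j : ℕ, ∀ x : 𝓞 L, σ ((x : L) : Qb) - ((x : L) : Qb) ^ (ℓ ^ j) ∈ A.nonunits := by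
  have hℓ : ℓ.Prime := Fact.out
  have : NumberField L := { to_charZero := inferInstance, to_finiteDimensional := inferInstance }
  set P := primeBelow L A with hP
  have hℓP : (ℓ : 𝓞 L) ∈ P := natCast_mem_primeBelow L hA
  have hP0 : P ≠ ⊥ := by
    intro h0
    rw [h0] at hℓP
    have : (ℓ : 𝓞 L) = 0 := by simpa using hℓP
    exact hℓ.ne_zero (by exact_mod_cast this)
  have hPmax : P.IsMaximal := Ideal.IsPrime.isMaximal inferInstance hP0
  let _ : Field (𝓞 L ⧸ P) := Ideal.Quotient.field P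
  have hfin : Finite (𝓞 L ⧸ P) := Ideal.finiteQuotientOfFreeOfNeBot P hP0
  have hchar : CharP (𝓞 L ⧸ P) ℓ := by
    rw [CharP.charP_iff_prime_eq_zero hℓ]
    have : ((ℓ : 𝓞 L ⧸ P)) = Ideal.Quotient.mk P (ℓ : 𝓞 L) := by simp
    rw [this, Ideal.Quotient.eq_zero_iff_mem]
    exact hℓP
  let σL := AlgEquiv.restrictNormalHom L σ
  have hmap : P ≤ P.comap (MulSemiringAction.toRingHom (L ≃ₐ[ℚ] L) (𝓞 L) σL) := by
    intro x hx
    rw [Ideal.mem_comap, MulSemiringAction.toRingHom_apply, mem_primeBelow_iff,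
      coe_restrictNormal_smul]
    exact decompfin_apply_mem_nonunits hσ ((mem_primeBelow_iff L A x).mp hx)
  obtain ⟨j, hj⟩ := decompfin_hom_eq_frob_pow (𝓞 L ⧸ P) ℓ (Ideal.quotientMap P _ hmap)
  refine ⟨j, fun x => ?_⟩
  have h1 := hj (Ideal.Quotient.mk P x)
  rw [Ideal.quotientMap_mk, ← map_pow, Ideal.Quotient.mk_eq_mk_iff_sub_mem,
    MulSemiringAction.toRingHom_apply, mem_primeBelow_iff] at h1
  have h2 : (((σL • x - x ^ ℓ ^ j : 𝓞 L) : L) : Qb) =
      σ ((x : L) : Qb) - ((x : L) : Qb) ^ (ℓ ^ j) := by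
    rw [← coe_restrictNormal_smul L σ x]
    push_cast
    rfl
  rw [← h2]
  exact h1

end aux

variable {ℓ : ℕ} [Fact ℓ.Prime] {A : ValuationSubring Qb}

/-- (Fin) Galois theory of the finite residue field -/
theorem exists_frob_pow_congr (hA : A.LiesOverPrime ℓ) {Fr : Gal} (hFr : A.IsFrobeniusAt Fr ℓ)
    (L : IntermediateField ℚ Qb) [FiniteDimensional ℚ L] [IsGalois ℚ L] {σ : Gal}
    (hσ : σ ∈ A.decompositionSubgroup ℚ) :
    ∃ j : ℕ, ∀ a ∈ L, a ∈ A → σ a - (Fr ^ j) a ∈ A.nonunits := by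
  obtain ⟨j, hj⟩ := decompfin_integers hA L hσ
  have hFrj := decompfin_isFrobeniusAt_pow hFr j
  have hτ : Fr ^ j ∈ A.decompositionSubgroup ℚ := hFrj.mem_decompositionSubgroup
  -- the congruence on integers
  have hint : ∀ x : 𝓞 L, σ ((x : L) : Qb) - (Fr ^ j) ((x : L) : Qb) ∈ A.nonunits := by
    intro x
    have h1 := sub_pow_mem_nonunits_of_isFrobeniusAt hFrj (coe_mem_valuationSubring L A x)
    have h2 := decompfin_sub_mem_nonunits (hj x) h1
    have h3 : σ ((x : L) : Qb) - ((x : L) : Qb) ^ ℓ ^ j -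
        ((Fr ^ j) ((x : L) : Qb) - ((x : L) : Qb) ^ ℓ ^ j) =
        σ ((x : L) : Qb) - (Fr ^ j) ((x : L) : Qb) := by ring
    rwa [h3] at h2
  refine ⟨j, fun a haL haA => ?_⟩
  have halg : IsAlgebraic ℤ (⟨a, haL⟩ : L) :=
    (IsFractionRing.isAlgebraic_iff ℤ ℚ L).mpr (Algebra.IsAlgebraic.isAlgebraic _)
  obtain ⟨b, c, hb, hc, hbu, hbc⟩ :=
    Fermat.Agent.Lib.Frobenius.exists_integral_fraction_of_isAlgebraic
      (A.comap (algebraMap L Qb)) (⟨a, haL⟩ : L) haA halg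
  rw [ValuationSubring.mem_nonunits_iff_or, not_or, not_not] at hbu
  obtain ⟨hb0, hbinv⟩ := hbu
  have hbinv' : ((b : L) : Qb)⁻¹ ∈ A := by
    have : algebraMap L Qb b⁻¹ ∈ A := hbinv
    simpa using this
  have hbc' : a * (b : Qb) = (c : Qb) := congrArg (algebraMap L Qb) hbc
  have hβ := hint ⟨b, hb⟩
  have hγ := hint ⟨c, hc⟩
  change σ (b : Qb) - (Fr ^ j) (b : Qb) ∈ A.nonunits at hβ
  change σ (c : Qb) - (Fr ^ j) (c : Qb) ∈ A.nonunits at hγ
  have hb0' : (b : Qb) ≠ 0 := by simpa using hb0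
  have hσb0 : σ (b : Qb) ≠ 0 := (map_ne_zero σ).mpr hb0'
  have hkey : σ a - (Fr ^ j) a =
      ((σ (c : Qb) - (Fr ^ j) (c : Qb)) - (σ (b : Qb) - (Fr ^ j) (b : Qb)) * (Fr ^ j) a) *
        σ ((b : Qb)⁻¹) := by
    rw [← hbc', map_mul, map_mul, map_inv₀]
    field_simp
    ring
  rw [hkey]
  exact decompfin_mul_mem_nonunits
    (decompfin_sub_mem_nonunits hγ (decompfin_mul_mem_nonunits hβ (decompfin_apply_mem hτ haA)))
    (decompfin_apply_mem hσ hbinv')

end Fermat.Agent.S19
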