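/-
S19-T6 set-up (block T, helper92).  The profinite group `Gal(ℚ̄/L)` acting on the ring of all algebraic integers.
-/
import Fermat.Agent.S19.T.Defs
import Fermat.Agent.Lib.WeakChebotarev.Qbar

set_option autoImplicit false
set_option linter.style.haveILetI false

namespace Fermat.Agent.S19

open scoped Pointwise
open Fermat.Agent.Lib.Frobenius

attribute [local instance] zbarAction

/-- the prime of `Zbar` cut out by `A` -/
noncomputable def zbarToVal (A : ValuationSubring Qb) : Zbar →+* A where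
  toFun x := ⟨x.1, mem_valuationSubring_of_isIntegral A x.2⟩
  map_one' := rfl
  map_mul' _ _ := rfl
  map_zero' := rfl
  map_add' _ _ := rfl

noncomputable def zbarPrime (A : ValuationSubring Qb) : Ideal Zbar :=
  (IsLocalRing.maximalIdeal A).comap (zbarToVal A)

instance zbarPrime_isPrime (A : ValuationSubring Qb) : (zbarPrime A).IsPrime :=
  Ideal.comap_isPrime _ _

theorem mem_zbarPrime_iff (A : ValuationSubring Qb) (x : Zbar) :
    x ∈ zbarPrime A ↔ (x : Qb) ∈ A.nonunits := by
  rw [ValuationSubring.mem_nonunits_iff_exists_mem_maximalIdeal]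
  constructor
  · intro h
    exact ⟨mem_valuationSubring_of_isIntegral A x.2, h⟩
  · rintro ⟨_, h⟩
    exact h

theorem isIntegral_apply (σ : Gal) {x : Qb} (hx : IsIntegral ℤ x) : IsIntegral ℤ (σ x) :=
  hx.map (σ.toAlgHom.restrictScalars ℤ)

/-- an integral element which is not in `m_A` has its inverse in `A` -/
theorem inv_mem_of_not_mem_nonunits (A : ValuationSubring Qb) {x : Qb} (hx : x ∉ A.nonunits) :
    x⁻¹ ∈ A := by
  rw [ValuationSubring.mem_nonunits_iff, not_lt] at hx
  rw [← ValuationSubring.valuation_le_one_iff, map_inv₀]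
  exact inv_le_one_of_one_le₀ hx

/-- `σ` maps `A` into `A` as soon as it does not move integral units of `A` into `m_A` -/
theorem apply_mem_of_forall (A : ValuationSubring Qb) (σ : Gal)
    (h : ∀ x : Qb, IsIntegral ℤ x → σ x ∈ A.nonunits → x ∈ A.nonunits) {x : Qb} (hx : x ∈ A) :
    σ x ∈ A := by
  obtain ⟨b, c, hb, hc, hbn, hxbc⟩ := exists_integral_fraction A x hx
  have hσb : σ b ∉ A.nonunits := fun hcon => hbn (h b hb hcon)
  have hσb0 : σ b ≠ 0 := by
    intro h0
    apply hσb
    rw [h0, ValuationSubring.mem_nonunits_iff, map_zero]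
    exact zero_lt_one
  have h1 : σ x = σ c * (σ b)⁻¹ := by
    rw [← hxbc, map_mul, mul_assoc, mul_inv_cancel₀ hσb0, mul_one]
  rw [h1]
  exact A.mul_mem _ _ (mem_valuationSubring_of_isIntegral A (isIntegral_apply σ hc))
    (inv_mem_of_not_mem_nonunits A hσb)

/-- criterion for membership in the decomposition group -/
theorem mem_decomposition_of (A : ValuationSubring Qb) (σ : Gal)
    (h : ∀ x : Qb, IsIntegral ℤ x → (σ x ∈ A.nonunits ↔ x ∈ A.nonunits)) :
    σ ∈ A.decompositionSubgroup ℚ := by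
  change σ • A = A
  have h1 : ∀ x ∈ A, σ x ∈ A := fun x hx => apply_mem_of_forall A σ (fun y hy => (h y hy).1) hx
  have h2 : ∀ x ∈ A, σ⁻¹ x ∈ A := by
    intro x hx
    refine apply_mem_of_forall A σ⁻¹ (fun y hy hy' => ?_) hx
    have := (h (σ⁻¹ y) (isIntegral_apply σ⁻¹ hy)).2 hy'
    rwa [show σ (σ⁻¹ y) = y from AlgEquiv.apply_symm_apply σ y] at this
  ext x
  rw [ValuationSubring.mem_pointwise_smul_iff_inv_smul_mem]
  constructor
  · intro hx
    have := h1 _ hx
    rwa [show σ (σ⁻¹ • x) = x from AlgEquiv.apply_symm_apply σ x] at this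
  · intro hx
    exact h2 x hx

variable (L : IntermediateField ℚ Qb)

/-- integers of `L`, as the subalgebra of `Zbar` fixed by `Gal(ℚ̄/L)` -/
noncomputable abbrev zbarFix : Subalgebra ℤ Zbar :=
  FixedPoints.subalgebra ℤ Zbar L.fixingSubgroup

theorem zbarFix_isInvariant : Algebra.IsInvariant (zbarFix L) Zbar L.fixingSubgroup where
  isInvariant b hb := ⟨⟨b, hb⟩, rfl⟩

theorem zbarFix_smulCommClass : SMulCommClass L.fixingSubgroup (zbarFix L) Zbar where
  smul_comm g a b := by
    change g • (a.1 * b) = a.1 * (g • b)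
    rw [smul_mul', a.2 g]

theorem coe_mem_of_mem_zbarFix (x : zbarFix L) : ((x : Zbar) : Qb) ∈ L := by
  haveI := isGalois_rat
  have h : ((x : Zbar) : Qb) ∈ IntermediateField.fixedField L.fixingSubgroup := by
    rw [IntermediateField.mem_fixedField_iff]
    intro g hg
    exact congrArg Subtype.val (x.2 ⟨g, hg⟩)
  rwa [InfiniteGalois.fixedField_fixingSubgroup L] at h

theorem mem_zbarFix_of_coe_mem {x : Zbar} (hx : (x : Qb) ∈ L) : x ∈ zbarFix L := by
  intro g
  apply Subtype.ext
  exact (IntermediateField.mem_fixingSubgroup_iff L g.1).1 g.2 x.1 hx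

theorem fixing_totallyDisconnectedSpace : TotallyDisconnectedSpace L.fixingSubgroup := by
  haveI := isGalois_rat
  haveI := isIntegral_rat
  infer_instance
theorem fixing_compactSpace [FiniteDimensional ℚ L] : CompactSpace L.fixingSubgroup := by
  haveI := isGalois_rat
  haveI := isIntegral_rat
  exact isCompact_iff_compactSpace.1 (L.fixingSubgroup_isClosed).isCompact

theorem fixing_continuousSMul [TopologicalSpace Zbar] [DiscreteTopology Zbar] :
    ContinuousSMul L.fixingSubgroup Zbar := by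
  haveI := isGalois_rat
  haveI := isIntegral_rat
  haveI : ContinuousSMul Gal Zbar := by
    rw [continuousSMul_iff_stabilizer_isOpen]
    intro x
    convert stabilizer_isOpen_of_isIntegral (K := ℚ) (L := AlgebraicClosure ℚ) x.1 using 1
    ext σ
    simp only [SetLike.mem_coe, MulAction.mem_stabilizer_iff]
    constructor
    · intro h
      exact congrArg Subtype.val h
    · intro h
      exact Subtype.ext h
  infer_instance


/-- (T') transitivity on primes -/
theorem exists_fixing_smul_eq [FiniteDimensional ℚ L] (P Q : Ideal Zbar) [P.IsPrime] [Q.IsPrime]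
    (h : ∀ x : Zbar, (x : Qb) ∈ L → (x ∈ P ↔ x ∈ Q)) :
    ∃ g : L.fixingSubgroup, Q = g • P := by
  haveI := zbarFix_isInvariant L
  haveI := zbarFix_smulCommClass L
  haveI := fixing_totallyDisconnectedSpace L
  haveI := fixing_compactSpace L
  letI : TopologicalSpace Zbar := ⊥
  haveI : DiscreteTopology Zbar := ⟨rfl⟩
  haveI := fixing_continuousSMul L
  refine Algebra.IsInvariant.exists_smul_of_under_eq_of_profinite (A := zbarFix L)
    (G := L.fixingSubgroup) P Q ?_
  ext x
  exact h x.1 (coe_mem_of_mem_zbarFix L x)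

/-- (S') surjectivity onto the automorphisms of the residue field -/
theorem exists_fixing_congr [FiniteDimensional ℚ L] (Q : Ideal Zbar) [Q.IsPrime]
    (σ : Gal) (hσ : σ • Q = Q) (hσ' : ∀ x : Zbar, (x : Qb) ∈ L → σ • x - x ∈ Q) :
    ∃ g : L.fixingSubgroup, ∀ x : Zbar, g • x - σ • x ∈ Q := by
  haveI := zbarFix_isInvariant L
  haveI := zbarFix_smulCommClass L
  haveI := fixing_totallyDisconnectedSpace L
  haveI := fixing_compactSpace L
  letI : TopologicalSpace Zbar := ⊥
  haveI : DiscreteTopology Zbar := ⟨rfl⟩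
  haveI := fixing_continuousSMul L
  let P : Ideal (zbarFix L) := Q.under (zbarFix L)
  haveI : Q.LiesOver P := ⟨rfl⟩
  let e : (Zbar ⧸ Q) ≃+* (Zbar ⧸ Q) :=
    Ideal.quotientEquiv Q Q (MulSemiringAction.toRingEquiv Gal Zbar σ) (by
      exact hσ.symm)
  let l : (Zbar ⧸ Q) ≃ₐ[zbarFix L ⧸ P] (Zbar ⧸ Q) :=
    AlgEquiv.ofRingEquiv (f := e) (by
      intro r
      obtain ⟨r, rfl⟩ := Ideal.Quotient.mk_surjective r
      change Ideal.Quotient.mk Q (σ • (r : Zbar)) = Ideal.Quotient.mk Q (r : Zbar)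
      rw [Ideal.Quotient.eq]
      exact hσ' r.1 (coe_mem_of_mem_zbarFix L r))
  obtain ⟨g, hg⟩ := Ideal.Quotient.stabilizerHom_surjective_of_profinite
    (G := L.fixingSubgroup) P Q l
  refine ⟨g.1, fun x => ?_⟩
  have h1 := DFunLike.congr_fun hg (Ideal.Quotient.mk Q x)
  change Ideal.Quotient.mk Q (g.1 • x) = Ideal.Quotient.mk Q (σ • x) at h1
  rwa [Ideal.Quotient.eq] at h1

variable {L}

theorem apply_mem_of_mem [IsGalois ℚ L] (σ : Gal) {a : Qb} (ha : a ∈ L) : σ a ∈ L := by
  have h := AlgEquiv.restrictNormal_commutes σ L ⟨a, ha⟩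
  have h2 : σ a = ((σ.restrictNormal L ⟨a, ha⟩ : L) : Qb) := h.symm
  rw [h2]
  exact (σ.restrictNormal L ⟨a, ha⟩).2

theorem exists_pow_fix [FiniteDimensional ℚ L] [IsGalois ℚ L] (σ : Gal) :
    ∃ n : ℕ, 0 < n ∧ ∀ a ∈ L, (σ ^ n) a = a := by
  set r := AlgEquiv.restrictNormalHom L σ with hr
  refine ⟨orderOf r, orderOf_pos r, fun a ha => ?_⟩
  have h1 : AlgEquiv.restrictNormalHom L (σ ^ orderOf r) = 1 := by
    rw [map_pow, ← hr, pow_orderOf_eq_one]
  have h2 := AlgEquiv.restrictNormal_commutes (σ ^ orderOf r) L ⟨a, ha⟩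
  have h3 : (σ ^ orderOf r).restrictNormal L = 1 := h1
  rw [h3] at h2
  exact h2.symm

theorem StabAt.pow [IsGalois ℚ L] {A : ValuationSubring Qb} {σ : Gal} (h : StabAt A L σ) (n : ℕ) :
    StabAt A L (σ ^ n) := by
  induction n with
  | zero => intro a _ ha; simpa using ha
  | succ n ih =>
    intro a haL ha
    rw [pow_succ']
    exact h _ (apply_mem_of_mem _ haL) (ih a haL ha)

theorem StabAt.inv [FiniteDimensional ℚ L] [IsGalois ℚ L] {A : ValuationSubring Qb} {σ : Gal}
    (h : StabAt A L σ) : StabAt A L σ⁻¹ := by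
  obtain ⟨n, hn, hfix⟩ := exists_pow_fix (L := L) σ
  obtain ⟨m, rfl⟩ := Nat.exists_eq_succ_of_ne_zero hn.ne'
  intro a haL ha
  have h1 : σ⁻¹ a = (σ ^ m) a := by
    have h2 := hfix a haL
    rw [pow_succ'] at h2
    have h3 : σ ((σ ^ m) a) = a := h2
    calc σ⁻¹ a = σ⁻¹ (σ ((σ ^ m) a)) := by rw [h3]
      _ = (σ ^ m) a := AlgEquiv.symm_apply_apply σ _
  rw [h1]
  exact h.pow m a haL ha

theorem apply_mem_nonunits_of_stabAt_inv {A : ValuationSubring Qb} {τ : Gal}
    (h : StabAt A L τ⁻¹) {a : Qb} (hL : τ a ∈ L) (ha : a ∈ A.nonunits) : τ a ∈ A.nonunits := by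
  by_contra hcon
  have h1 := inv_mem_of_not_mem_nonunits A hcon
  have h2 := h _ (inv_mem hL) h1
  have h3 : τ⁻¹ ((τ a)⁻¹) = a⁻¹ := by
    rw [map_inv₀]
    congr 1
    exact AlgEquiv.symm_apply_apply τ a
  rw [h3] at h2
  rcases eq_or_ne a 0 with rfl | ha0
  · apply hcon
    rw [map_zero]
    exact ha
  · rw [ValuationSubring.mem_nonunits_iff] at ha
    rw [← ValuationSubring.valuation_le_one_iff, map_inv₀] at h2
    have h4 : A.valuation a ≠ 0 := (A.valuation.ne_zero_iff).2 ha0
    have h5 : 1 ≤ A.valuation a := (inv_le_one₀ (zero_lt_iff.2 h4)).1 h2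
    exact absurd ha (not_lt.2 h5)

end Fermat.Agent.S19
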