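/-
S19-T6c (block T, helper92).  (S) absolute inertia surjects onto the inertia group of `L`.
-/
import Fermat.Agent.S19.T.DecompSetup
import Fermat.Agent.S13.Minkowski

set_option autoImplicit false

namespace Fermat.Agent.S19

open scoped Pointwise
open Fermat.Agent.Lib.Frobenius

attribute [local instance] zbarAction

variable {ℓ : ℕ} {A : ValuationSubring Qb}

/-- (S) surjectivity of inertia -/
theorem exists_fixing_mul_mem_inertia (_hA : A.LiesOverPrime ℓ)
    (L : IntermediateField ℚ Qb) [FiniteDimensional ℚ L] [IsGalois ℚ L] {σ : Gal}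
    (hσ : σ ∈ A.decompositionSubgroup ℚ) (hσ' : ∀ a ∈ L, a ∈ A → σ a - a ∈ A.nonunits) :
    ∃ u ∈ L.fixingSubgroup, σ * u ∈ A.inertiaSubgroupIn ℚ := by
  have hσA : σ • A = A := hσ
  have hQ : σ • zbarPrime A = zbarPrime A := by
    ext x
    rw [Ideal.mem_pointwise_smul_iff_inv_smul_mem, mem_zbarPrime_iff, mem_zbarPrime_iff]
    change σ⁻¹ (x : Qb) ∈ A.nonunits ↔ _
    rw [← Fermat.Agent.Lib.WeakChebotarev.Transfer.mem_nonunits_smul_iff, hσA]
  obtain ⟨g, hg⟩ := exists_fixing_congr L (zbarPrime A) σ hQ (fun x hx => by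
    rw [mem_zbarPrime_iff]
    exact hσ' _ hx (mem_valuationSubring_of_isIntegral A x.2))
  refine ⟨g.1⁻¹, inv_mem g.2, ?_⟩
  apply Fermat.Agent.S13.Minkowski.mem_inertiaSubgroupIn_of
  intro x hx
  have h1 := hg ⟨g.1⁻¹ x, isIntegral_apply _ hx⟩
  rw [mem_zbarPrime_iff] at h1
  have h2 : g.1 (g.1⁻¹ x) - σ (g.1⁻¹ x) ∈ A.nonunits := h1
  rw [show g.1 (g.1⁻¹ x) = x from AlgEquiv.apply_symm_apply g.1 x] at h2
  have h3 : (σ * g.1⁻¹) x - x = -(x - σ (g.1⁻¹ x)) := by
    rw [neg_sub]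
    rfl
  rw [h3, ValuationSubring.mem_nonunits_iff, Valuation.map_neg, ← ValuationSubring.mem_nonunits_iff]
  exact h2

end Fermat.Agent.S19
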