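/-
S19-T6a (block T, helper92).  (T) `Gal(ℚ̄/L)` is transitive on the valuation rings above `A ∩ L`.
-/
import Fermat.Agent.S19.T.DecompSetup

set_option autoImplicit false

namespace Fermat.Agent.S19

open scoped Pointwise
open Fermat.Agent.Lib.Frobenius

attribute [local instance] zbarAction

variable {ℓ : ℕ} {A : ValuationSubring Qb}

/-- (T) transitivity -/
theorem exists_fixing_mul_mem_decomposition (_hA : A.LiesOverPrime ℓ)
    (L : IntermediateField ℚ Qb) [FiniteDimensional ℚ L] [IsGalois ℚ L] {σ : Gal}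
    (hσ : StabAt A L σ) :
    ∃ u ∈ L.fixingSubgroup, σ * u ∈ A.decompositionSubgroup ℚ := by
  have hσi : StabAt A L σ⁻¹ := hσ.inv
  have hσii : StabAt A L (σ⁻¹)⁻¹ := by rwa [inv_inv]
  have key : ∀ x : Zbar, (x : Qb) ∈ L → (x ∈ zbarPrime A ↔ x ∈ σ⁻¹ • zbarPrime A) := by
    intro x hx
    rw [Ideal.mem_inv_pointwise_smul_iff, mem_zbarPrime_iff, mem_zbarPrime_iff]
    change (x : Qb) ∈ A.nonunits ↔ σ (x : Qb) ∈ A.nonunits
    constructor
    · intro h
      exact apply_mem_nonunits_of_stabAt_inv hσi (apply_mem_of_mem σ hx) h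
    · intro h
      have h2 := apply_mem_nonunits_of_stabAt_inv (τ := σ⁻¹) hσii
        (a := σ (x : Qb)) (apply_mem_of_mem _ (apply_mem_of_mem σ hx)) h
      rwa [show σ⁻¹ (σ (x : Qb)) = x from AlgEquiv.symm_apply_apply σ _] at h2
  obtain ⟨g, hg⟩ := exists_fixing_smul_eq L (zbarPrime A) (σ⁻¹ • zbarPrime A) key
  refine ⟨g.1, g.2, mem_decomposition_of A _ fun x hx => ?_⟩
  have h2 : (g • (⟨x, hx⟩ : Zbar)) ∈ g • zbarPrime A ↔ (⟨x, hx⟩ : Zbar) ∈ zbarPrime A :=
    Ideal.smul_mem_pointwise_smul_iff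
  rw [← hg, Ideal.mem_inv_pointwise_smul_iff, mem_zbarPrime_iff, mem_zbarPrime_iff] at h2
  exact h2

end Fermat.Agent.S19
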