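/-
S19-T6d (block T, architect helper92).  (α) every `σ` stabilising `A ∩ L` agrees on `L` with `Fr^j τ`, `τ` in inertia.
Sketch.  (T) gives `u₁` fixing `L` with `σ₁ := σ u₁ ∈ D`.  (Fin) gives `j` with `σ₁ ≡ Fr^j` on `A ∩ L`.
`σ₂ := Fr^-j σ₁ ∈ D` is `≡ id` on `A ∩ L` (apply `Fr^-j`, which preserves `m_A` and `L`).  (S) gives `u₂` fixing `L` with
`τ := σ₂ u₂` in inertia.  On `L`: `σ a = σ₁ a = Fr^j (σ₂ a) = Fr^j (τ a)` (`u₁, u₂` fix `L` pointwise).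
`gconj_eq_of_stabAt`: `gconj σ ψ = gconj (Fr^j * τ) ψ` by `gconj_congr`, then `gconj_mul`, invariance, induction on `j`.
-/
import Fermat.Agent.S19.T.Conj
import Fermat.Agent.S19.T.DecompT
import Fermat.Agent.S19.T.DecompFin
import Fermat.Agent.S19.T.DecompS

set_option autoImplicit false

namespace Fermat.Agent.S19

open scoped Pointwise

variable {ℓ : ℕ} [Fact ℓ.Prime] {A : ValuationSubring Qb}

omit [Fact ℓ.Prime] in
/-- elements of the decomposition group preserve the nonunits -/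
theorem decomp_apply_mem_nonunits {g : Gal} (hg : g ∈ A.decompositionSubgroup ℚ) {z : Qb}
    (hz : z ∈ A.nonunits) : g z ∈ A.nonunits := by
  have h1 : g • A = A := hg
  have h2 := (Fermat.Agent.Lib.WeakChebotarev.Transfer.mem_nonunits_smul_iff g A (g z)).mpr (by
    have : g⁻¹ (g z) = z := by
      rw [← AlgEquiv.mul_apply, inv_mul_cancel, AlgEquiv.one_apply]
    rw [this]
    exact hz)
  rwa [h1] at h2

theorem decomp_gconj_pow_eq {Y : Type} [MulAction Gal Y] {g : Gal} {ψ : Y → Qb}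
    (h : gconj g ψ = ψ) (j : ℕ) : gconj (g ^ j) ψ = ψ := by
  induction j with
  | zero => rw [pow_zero, gconj_one]
  | succ n ih => rw [gconj_pow_succ, ih, h]

/-- (α) -/
theorem exists_frob_pow_inertia (hA : A.LiesOverPrime ℓ) {Fr : Gal} (hFr : A.IsFrobeniusAt Fr ℓ)
    (L : IntermediateField ℚ Qb) [FiniteDimensional ℚ L] [IsGalois ℚ L] {σ : Gal}
    (hσ : StabAt A L σ) :
    ∃ (j : ℕ) (τ : Gal), τ ∈ A.inertiaSubgroupIn ℚ ∧ ∀ a ∈ L, σ a = (Fr ^ j) (τ a) := by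
  obtain ⟨u₁, hu₁, hσ₁⟩ := exists_fixing_mul_mem_decomposition hA L hσ
  obtain ⟨j, hj⟩ := exists_frob_pow_congr hA hFr L hσ₁
  have hFrj : (Fr ^ j)⁻¹ ∈ A.decompositionSubgroup ℚ :=
    inv_mem (pow_mem hFr.mem_decompositionSubgroup j)
  have hσ₂ : (Fr ^ j)⁻¹ * (σ * u₁) ∈ A.decompositionSubgroup ℚ := mul_mem hFrj hσ₁
  have hcong : ∀ a ∈ L, a ∈ A → ((Fr ^ j)⁻¹ * (σ * u₁)) a - a ∈ A.nonunits := by
    intro a haL haA
    have h1 := decomp_apply_mem_nonunits hFrj (hj a haL haA)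
    rw [map_sub] at h1
    have h2 : (Fr ^ j)⁻¹ ((Fr ^ j) a) = a := by
      rw [← AlgEquiv.mul_apply, inv_mul_cancel, AlgEquiv.one_apply]
    rw [h2] at h1
    exact h1
  obtain ⟨u₂, hu₂, hτ⟩ := exists_fixing_mul_mem_inertia hA L hσ₂ hcong
  refine ⟨j, (Fr ^ j)⁻¹ * (σ * u₁) * u₂, hτ, ?_⟩
  intro a ha
  have e₁ : u₁ a = a := (IntermediateField.mem_fixingSubgroup_iff L u₁).mp hu₁ a ha
  have e₂ : u₂ a = a := (IntermediateField.mem_fixingSubgroup_iff L u₂).mp hu₂ a ha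
  rw [← AlgEquiv.mul_apply, ← mul_assoc, ← mul_assoc, mul_inv_cancel, one_mul,
    AlgEquiv.mul_apply, AlgEquiv.mul_apply, e₂, e₁]

/-- consequence used by the averaging argument -/
theorem gconj_eq_of_stabAt (hA : A.LiesOverPrime ℓ) {Fr : Gal} (hFr : A.IsFrobeniusAt Fr ℓ)
    {Y : Type} [MulAction Gal Y]
    (L : IntermediateField ℚ Qb) [FiniteDimensional ℚ L] [IsGalois ℚ L]
    (hL : ∀ σ ∈ L.fixingSubgroup, ∀ y : Y, σ • y = y) {ψ : Y → Qb} (hψ : ∀ y, ψ y ∈ L)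
    (hinv : IsLocInv A Fr ψ) {σ : Gal} (hσ : StabAt A L σ) : gconj σ ψ = ψ := by
  obtain ⟨j, τ, hτ, h⟩ := exists_frob_pow_inertia hA hFr L hσ
  have h1 : gconj σ ψ = gconj (Fr ^ j * τ) ψ :=
    gconj_congr hL hψ (fun a ha => by rw [h a ha, AlgEquiv.mul_apply])
  rw [h1, gconj_mul, hinv.1 τ hτ]
  exact decomp_gconj_pow_eq hinv.2 j

end Fermat.Agent.S19
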