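/-
S19-T9 (block T, architect helper92).  Global approximation of locally invariant functions by equivariant ones.
Sketch.  `L` from `exists_level` (family `fun _ : Unit => ψ`, `L₀ := ⊥`), `s : Fin n → Gal` from `exists_reps`.
`T := {i | StabAt A L (s i)}` is nonempty (the index of `1`), `d := #T`.  `c₁` with `ℓ^c₁ * (d:Qb)⁻¹ ∈ A`; `c₂` with
`ℓ^c₂ * (gconj (s i) ψ y) ∈ A` for all `i, y` (`exists_pow_mul_mem_finite`).  `e` from `exists_crt` with `M' := M + c₁ + c₂`.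
`ψ' := (d:Qb)⁻¹ • ∑ i, gconj (s i) (e • ψ)`; equivariant by `isEqv_sum_gconj` (`d⁻¹` is rational).
`gconj (s i) (e • ψ) = (s i) e • gconj (s i) ψ`; for `i ∈ T` `gconj (s i) ψ = ψ` (`gconj_eq_of_stabAt`).  Hence
`d * (ψ y - ψ' y) = ∑_{i∈T} (1 - s i e) * ψ y - ∑_{i∉T} (s i e) * gconj (s i) ψ y ∈ ℓ^(M + c₁) A`; multiply by `d⁻¹`
(`DivBy.mul_of_pow_mul_mem`).
-/
import Fermat.Agent.S19.T.Decomp
import Fermat.Agent.S19.T.CRT

set_option autoImplicit false

namespace Fermat.Agent.S19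

open scoped Pointwise

variable {ℓ : ℕ} [Fact ℓ.Prime] {A : ValuationSubring Qb}

/-- **global approximation.** -/
theorem exists_isEqv_approx (hA : A.LiesOverPrime ℓ) {Fr : Gal} (hFr : A.IsFrobeniusAt Fr ℓ)
    {Y : Type} [Finite Y] [MulAction Gal Y] (hY : IsSmoothAct Y) (ψ : Y → Qb)
    (hψA : ∀ y, ψ y ∈ A) (hinv : IsLocInv A Fr ψ) (M : ℕ) :
    ∃ ψ' : Y → Qb, IsEqv ψ' ∧ ∀ y, DivBy A ℓ M (ψ y - ψ' y) := by
  classical
  obtain ⟨L, hLfin, hLgal, -, hψL, hLfix⟩ := exists_level hY (fun _ : Unit => ψ) ⊥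
  have hψL' : ∀ y, ψ y ∈ L := hψL ()
  obtain ⟨n, s, hs⟩ := exists_reps L
  set T : Finset (Fin n) := Finset.univ.filter (fun i => StabAt A L (s i)) with hT
  have hTne : T.Nonempty := by
    obtain ⟨i1, hi1, -⟩ := hs 1
    refine ⟨i1, ?_⟩
    rw [hT, Finset.mem_filter]
    refine ⟨Finset.mem_univ _, fun a haL haA => ?_⟩
    rw [← hi1 a haL]
    exact haA
  set d : ℕ := T.card with hd
  have hd0 : (d : Qb) ≠ 0 := by
    rw [Nat.cast_ne_zero]
    exact (Finset.card_pos.2 hTne).ne'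
  obtain ⟨c₁, hc₁⟩ := exists_pow_mul_mem hA ((d : Qb)⁻¹)
  obtain ⟨c₂, hc₂⟩ := exists_pow_mul_mem_finite hA
    (fun p : Fin n × Y => gconj (s p.1) ψ p.2)
  obtain ⟨e, heL, he⟩ := exists_crt hA L (M + c₁ + c₂)
  have heψL : ∀ y, (e • ψ) y ∈ L := fun y => by
    rw [Pi.smul_apply, smul_eq_mul]
    exact mul_mem heL (hψL' y)
  have hsum : IsEqv (∑ i, gconj (s i) (e • ψ)) := isEqv_sum_gconj L hLfix s hs (e • ψ) heψL
  refine ⟨(d : Qb)⁻¹ • ∑ i, gconj (s i) (e • ψ), ?_, ?_⟩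
  · intro σ y
    rw [Pi.smul_apply, Pi.smul_apply, smul_eq_mul, smul_eq_mul, hsum σ y, map_mul, map_inv₀,
      map_natCast]
  · intro y
    set W : Qb := ∑ i, ((if StabAt A L (s i) then ψ y else 0) - (s i) e * gconj (s i) ψ y)
      with hW
    have hWdiv : DivBy A ℓ (M + c₁) W := by
      refine DivBy.sum _ fun i _ => ?_
      by_cases hi : StabAt A L (s i)
      · rw [if_pos hi, gconj_eq_of_stabAt hA hFr L hLfix hψL' hinv hi]
        have h1 : DivBy A ℓ (M + c₁ + c₂) ((s i) e - 1) := (he (s i)).1 hi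
        have h2 : ψ y - (s i) e * ψ y = ψ y * (-((s i) e - 1)) := by ring
        rw [h2]
        exact (DivBy.mul_left (hψA y) h1.neg).mono (Nat.le_add_right _ _)
      · rw [if_neg hi, zero_sub]
        have h1 : DivBy A ℓ (M + c₁ + c₂) ((s i) e) := (he (s i)).2 hi
        have h2 := DivBy.mul_of_pow_mul_mem (M := M + c₁) (hc₂ (i, y)) h1
        have h3 : -((s i) e * gconj (s i) ψ y) = -(gconj (s i) ψ y * (s i) e) := by ring
        rw [h3]
        exact h2.neg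
    have hWeq : ψ y - ((d : Qb)⁻¹ • ∑ i, gconj (s i) (e • ψ)) y = (d : Qb)⁻¹ * W := by
      have h1 : ∑ i, (if StabAt A L (s i) then ψ y else 0) = (d : Qb) * ψ y := by
        rw [← Finset.sum_filter, Finset.sum_const, nsmul_eq_mul]
      have h2 : (∑ i, gconj (s i) (e • ψ)) y = ∑ i, (s i) e * gconj (s i) ψ y := by
        rw [Finset.sum_apply]
        refine Finset.sum_congr rfl fun i _ => ?_
        rw [gconj_smul, Pi.smul_apply, smul_eq_mul]
      rw [hW, Finset.sum_sub_distrib, h1, Pi.smul_apply, smul_eq_mul, h2]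
      field_simp
    rw [hWeq]
    exact DivBy.mul_of_pow_mul_mem hc₁ hWdiv

end Fermat.Agent.S19
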