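/-
S19-T10 (block T, architect helper92).  Equivariant functions separate the points of a smooth `G`-set.
Sketch.  If `y ∉ orbit x`: the indicator of the orbit of `x` (values `0, 1`).  If `y = τ • x ≠ x`: the stabiliser `S_x` of `x`
contains `L.fixingSubgroup`, hence is open, hence closed; by infinite Galois theory
(`InfiniteGalois.fixingSubgroup_fixedField`) there is `a : Qb` fixed by `S_x` with `τ a ≠ a`.
`φ z := if h : ∃ σ, σ • x = z then h.choose a else 0` is well defined on the orbit (`σ • x = σ' • x` => `σ⁻¹ σ' ∈ S_x` =>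
`σ a = σ' a`), equivariant, `φ x = a`, `φ y = τ a`.
(Finite-level alternative: `E := L`-normal closure; `S_x` is determined by its image in the finite group `Gal(E/ℚ)`.)
-/
import Fermat.Agent.S19.T.Conj

set_option autoImplicit false

namespace Fermat.Agent.S19

open Classical in
/-- the function `σ • x ↦ σ a`, extended by zero outside the orbit of `x`. -/
noncomputable def separateFun {Y : Type} [MulAction Gal Y] (x : Y) (a : Qb) : Y → Qb :=
  fun z => if h : ∃ σ : Gal, σ • x = z then h.choose a else 0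

theorem separateFun_smul {Y : Type} [MulAction Gal Y] {x : Y} {a : Qb}
    (ha : ∀ σ ∈ MulAction.stabilizer Gal x, σ a = a) (σ : Gal) :
    separateFun x a (σ • x) = σ a := by
  have h : ∃ σ' : Gal, σ' • x = σ • x := ⟨σ, rfl⟩
  unfold separateFun
  rw [dif_pos h]
  have h1 : σ⁻¹ * h.choose ∈ MulAction.stabilizer Gal x := by
    rw [MulAction.mem_stabilizer_iff, mul_smul, h.choose_spec, inv_smul_smul]
  have h2 := ha _ h1
  rw [AlgEquiv.mul_apply] at h2
  have h3 := congrArg σ h2
  rwa [← AlgEquiv.mul_apply, mul_inv_cancel, AlgEquiv.one_apply] at h3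

theorem separateFun_of_not {Y : Type} [MulAction Gal Y] {x z : Y} {a : Qb}
    (h : ¬ ∃ σ : Gal, σ • x = z) : separateFun x a z = 0 := by
  unfold separateFun
  rw [dif_neg h]

theorem separateFun_isEqv {Y : Type} [MulAction Gal Y] {x : Y} {a : Qb}
    (ha : ∀ σ ∈ MulAction.stabilizer Gal x, σ a = a) : IsEqv (separateFun x a) := by
  intro σ z
  by_cases h : ∃ σ' : Gal, σ' • x = z
  · obtain ⟨σ', rfl⟩ := h
    rw [← mul_smul, separateFun_smul ha, separateFun_smul ha, AlgEquiv.mul_apply]
  · have h' : ¬ ∃ σ' : Gal, σ' • x = σ • z := by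
      rintro ⟨σ', hσ'⟩
      exact h ⟨σ⁻¹ * σ', by rw [mul_smul, hσ', inv_smul_smul]⟩
    rw [separateFun_of_not h, separateFun_of_not h', map_zero]

theorem separate_exists_fixed {Y : Type} [MulAction Gal Y] (hY : IsSmoothAct Y) (x : Y) {τ : Gal}
    (hτ : τ ∉ MulAction.stabilizer Gal x) :
    ∃ a : Qb, (∀ σ ∈ MulAction.stabilizer Gal x, σ a = a) ∧ τ a ≠ a := by
  obtain ⟨L, hL, hfix⟩ := hY
  have hle : L.fixingSubgroup ≤ MulAction.stabilizer Gal x := fun σ hσ =>
    MulAction.mem_stabilizer_iff.mpr (hfix σ hσ x)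
  have hopen : IsOpen (MulAction.stabilizer Gal x : Set Gal) :=
    Subgroup.isOpen_mono hle (IntermediateField.fixingSubgroup_isOpen L)
  have hclosed : IsClosed (MulAction.stabilizer Gal x : Set Gal) :=
    Subgroup.isClosed_of_isOpen _ hopen
  have : IsGalois ℚ Qb := Fermat.Agent.Lib.Frobenius.isGalois_rat
  have hgal := InfiniteGalois.fixingSubgroup_fixedField
    (⟨MulAction.stabilizer Gal x, hclosed⟩ : ClosedSubgroup Gal)
  by_contra hcon
  push Not at hcon
  apply hτ
  have hmem : τ ∈ (IntermediateField.fixedField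
      (MulAction.stabilizer Gal x)).fixingSubgroup := by
    rw [IntermediateField.mem_fixingSubgroup_iff]
    intro a ha
    refine hcon a fun σ hσ => ?_
    exact (IntermediateField.mem_fixedField_iff _ a).mp ha σ hσ
  have := hgal ▸ hmem
  exact this

theorem exists_isEqv_ne {Y : Type} [MulAction Gal Y] (hY : IsSmoothAct Y) {x y : Y} (h : x ≠ y) :
    ∃ φ : Y → Qb, IsEqv φ ∧ φ x ≠ φ y := by
  by_cases hy : ∃ τ : Gal, τ • x = y
  · obtain ⟨τ, rfl⟩ := hy
    have hτ : τ ∉ MulAction.stabilizer Gal x := fun hτ =>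
      h (MulAction.mem_stabilizer_iff.mp hτ).symm
    obtain ⟨a, ha, hne⟩ := separate_exists_fixed hY x hτ
    refine ⟨separateFun x a, separateFun_isEqv ha, ?_⟩
    have h1 : separateFun x a x = a := by
      have := separateFun_smul ha (1 : Gal)
      rwa [one_smul, AlgEquiv.one_apply] at this
    rw [h1, separateFun_smul ha]
    exact hne.symm
  · have ha : ∀ σ ∈ MulAction.stabilizer Gal x, σ (1 : Qb) = 1 := fun σ _ => map_one σ
    refine ⟨separateFun x 1, separateFun_isEqv ha, ?_⟩
    have h1 : separateFun x (1 : Qb) x = 1 := by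
      have := separateFun_smul ha (1 : Gal)
      rwa [one_smul, AlgEquiv.one_apply] at this
    rw [h1, separateFun_of_not hy]
    exact one_ne_zero

end Fermat.Agent.S19
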