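/-
S19-T11 (block T, architect helper92; proofs helper66).  The order `H := {equivariant functions} ∩ Λ`.
Sketches.
* `eqvOrder`: closure properties are immediate; `algebraMap (Rl ℓ) (Y → Qb) r` is the constant function `(r : ℚ)`, equivariant, and equal to
  `algebraMap A (Y → Qb) ⟨_, (algebraMap_rat_mem_iff hA _).2 r.2⟩`.
* `isIntEquiv_of_isEqv`: all conjugates `σ (φ y) = φ (σ • y)` lie in `A`; the minimal polynomial of `φ y` over `ℚ` splits in `Qb` with roots
  conjugates of `φ y`, so its coefficients are in `A ∩ ℚ = Rl ℓ` (`algebraMap_rat_mem_iff`): monic polynomial over `Rl ℓ` killing `φ y`.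
* `eqvOrder_fg`: `H` is a submodule of the span of the finite family of `fg_intEquiv`; `Rl ℓ` is noetherian (PID).
* `eqvOrder_separates`: `exists_isEqv_ne`, then multiply by `ℓ^(c + c')` with `c'` from `exists_pow_mul_mem_finite`.
* `exists_conductor_eqvOrder`: `exists_conductor` for `S := H` gives `ℓ^c' (Y → A) ≤ Algebra.adjoin A H`, and
  `Algebra.adjoin A H = span A H` since `H` is closed under products and contains `1`.
-/
import Fermat.Agent.S19.T.Conductor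
import Fermat.Agent.S19.T.Separate
import Fermat.Agent.S19.BaseRing
import Fermat.Agent.S19.IntEquivFG

set_option autoImplicit false

namespace Fermat.Agent.S19

open scoped Pointwise

variable {ℓ : ℕ} [Fact ℓ.Prime] {A : ValuationSubring Qb}

theorem order_isEqv_mul {Y : Type} [MulAction Gal Y] {φ ψ : Y → Qb} (h : IsEqv φ) (h' : IsEqv ψ) :
    IsEqv (φ * ψ) := by
  intro σ y
  simp only [Pi.mul_apply, map_mul, h σ y, h' σ y]

theorem order_isEqv_add {Y : Type} [MulAction Gal Y] {φ ψ : Y → Qb} (h : IsEqv φ) (h' : IsEqv ψ) :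
    IsEqv (φ + ψ) := by
  intro σ y
  simp only [Pi.add_apply, map_add, h σ y, h' σ y]

theorem order_isEqv_const {Y : Type} [MulAction Gal Y] (q : ℚ) :
    IsEqv (fun _ : Y => algebraMap ℚ Qb q) := by
  intro σ y
  exact (σ.commutes q).symm

/-- the order attached to an `A`-algebra of functions -/
def eqvOrder (hA : A.LiesOverPrime ℓ) {Y : Type} [MulAction Gal Y]
    (Λ : Subalgebra A (Y → Qb)) : Subalgebra (Rl ℓ) (Y → Qb) where
  carrier := {φ | IsEqv φ ∧ φ ∈ Λ}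
  mul_mem' := fun ha hb => ⟨order_isEqv_mul ha.1 hb.1, Λ.mul_mem ha.2 hb.2⟩
  add_mem' := fun ha hb => ⟨order_isEqv_add ha.1 hb.1, Λ.add_mem ha.2 hb.2⟩
  algebraMap_mem' := fun r => ⟨order_isEqv_const (r : ℚ),
    Λ.algebraMap_mem ⟨algebraMap ℚ Qb (r : ℚ), (algebraMap_rat_mem_iff hA _).2 r.2⟩⟩

theorem mem_eqvOrder (hA : A.LiesOverPrime ℓ) {Y : Type} [MulAction Gal Y]
    (Λ : Subalgebra A (Y → Qb)) (φ : Y → Qb) : φ ∈ eqvOrder hA Λ ↔ IsEqv φ ∧ φ ∈ Λ := Iff.rfl

/-- an element all of whose conjugates lie in `A` is integral over `ℤ_(ℓ)` -/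
theorem order_isIntegral_of_conj_mem (hA : A.LiesOverPrime ℓ) (x : Qb) (hx : ∀ σ : Gal, σ x ∈ A) :
    IsIntegral (Rl ℓ) x := by
  classical
  have halg : IsAlgebraic ℚ x := IntEquivFG.isAlgebraic_Qb x
  have hint : IsIntegral ℚ x := halg.isIntegral
  set p : Polynomial ℚ := minpoly ℚ x with hp
  have hmonic : p.Monic := minpoly.monic hint
  set P : Polynomial Qb := p.map (algebraMap ℚ Qb) with hP
  have hPm : P.Monic := hmonic.map _
  have hsplit : P.Splits := IsAlgClosed.splits P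
  have hprod : P = (P.roots.map (fun a => Polynomial.X - Polynomial.C a)).prod :=
    hsplit.eq_prod_roots_of_monic hPm
  have hroots : ∀ r ∈ P.roots, r ∈ A := by
    intro r hr
    have hr0 : Polynomial.aeval r p = 0 := by
      have := (Polynomial.mem_roots hPm.ne_zero).1 hr
      rw [Polynomial.IsRoot.def, hP, Polynomial.eval_map_algebraMap] at this
      exact this
    have : Normal ℚ Qb := by
      have := BaseRing.isAlgClosure_rat
      exact IsAlgClosure.normal ℚ Qb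
    obtain ⟨σ, hσ⟩ := minpoly.exists_algEquiv_of_root' halg hr0
    rw [← hσ]
    exact hx σ
  have hlift : P ∈ Polynomial.lifts A.subtype := by
    rw [hprod]
    apply Subsemiring.multiset_prod_mem
    intro c hc
    obtain ⟨r, hr, rfl⟩ := Multiset.mem_map.1 hc
    refine ⟨Polynomial.X - Polynomial.C ⟨r, hroots r hr⟩, ?_⟩
    simp
  have hcoeff : ∀ n, p.coeff n ∈ Rl ℓ := by
    intro n
    rw [← algebraMap_rat_mem_iff hA]
    obtain ⟨a, ha⟩ := (Polynomial.lifts_iff_coeff_lifts P).1 hlift n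
    have h1 : P.coeff n = algebraMap ℚ Qb (p.coeff n) := by
      rw [hP, Polynomial.coeff_map]
    rw [← h1, ← ha]
    exact a.2
  have hsub : (↑p.coeffs : Set ℚ) ⊆ Rl ℓ := by
    intro c hc
    obtain ⟨n, -, rfl⟩ := Polynomial.mem_coeffs_iff.1 (Finset.mem_coe.1 hc)
    exact hcoeff n
  refine ⟨p.toSubring (Rl ℓ) hsub, (Polynomial.monic_toSubring p (Rl ℓ) hsub).2 hmonic, ?_⟩
  have h2 : Polynomial.eval₂ (algebraMap (Rl ℓ) Qb) x (p.toSubring (Rl ℓ) hsub) =
      Polynomial.eval₂ (algebraMap ℚ Qb) x ((p.toSubring (Rl ℓ) hsub).map (Rl ℓ).subtype) := by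
    rw [Polynomial.eval₂_map]
    rfl
  rw [h2, Polynomial.map_toSubring]
  exact minpoly.aeval ℚ x

/-- an equivariant `A`-valued function has values integral over `ℤ_(ℓ)` -/
theorem isIntEquiv_of_isEqv (hA : A.LiesOverPrime ℓ) {Y : Type} [MulAction Gal Y] {φ : Y → Qb}
    (h : IsEqv φ) (hφ : ∀ y, φ y ∈ A) : IsIntEquiv ℓ φ :=
  ⟨h, fun y => order_isIntegral_of_conj_mem hA (φ y) fun σ => by
    rw [← h σ y]; exact hφ _⟩

theorem eqvOrder_fg (hA : A.LiesOverPrime ℓ) {Y : Type} [Finite Y] [MulAction Gal Y]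
    (Λ : Subalgebra A (Y → Qb)) (hΛ : ∀ φ ∈ Λ, ∀ y, φ y ∈ A) :
    (Subalgebra.toSubmodule (eqvOrder hA Λ)).FG := by
  obtain ⟨r, s, -, -, hs⟩ := fg_intEquiv ℓ (W := Y)
  have := Rl_isPrincipalIdealRing ℓ
  have hle : Subalgebra.toSubmodule (eqvOrder hA Λ) ≤ Submodule.span (Rl ℓ) (Set.range s) := by
    intro φ hφ
    obtain ⟨c, hc⟩ := hs φ (isIntEquiv_of_isEqv hA hφ.1 (hΛ φ hφ.2))
    have h1 : φ = ∑ i, c i • s i := by
      rw [hc]
      funext w
      simp only [Finset.sum_apply, Pi.smul_apply]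
      rfl
    rw [h1]
    exact Submodule.sum_mem _ fun i _ =>
      Submodule.smul_mem _ _ (Submodule.subset_span ⟨i, rfl⟩)
  have hfg : (Submodule.span (Rl ℓ) (Set.range s)).FG :=
    Submodule.fg_span (Set.finite_range s)
  exact Submodule.FG.of_le hfg hle

theorem eqvOrder_separates (hA : A.LiesOverPrime ℓ) {Y : Type} [Finite Y] [MulAction Gal Y]
    (hY : IsSmoothAct Y) (Λ : Subalgebra A (Y → Qb)) {c : ℕ}
    (hc : ∀ ψ : Y → Qb, (∀ y, DivBy A ℓ c (ψ y)) → ψ ∈ Λ) {x y : Y} (h : x ≠ y) :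
    ∃ φ ∈ eqvOrder hA Λ, φ x ≠ φ y := by
  obtain ⟨φ, hφ, hne⟩ := exists_isEqv_ne hY h
  obtain ⟨c', hc'⟩ := exists_pow_mul_mem_finite hA φ
  have hℓ0 : (ℓ : Qb) ≠ 0 := by
    have : ℓ ≠ 0 := (Fact.out : ℓ.Prime).ne_zero
    exact_mod_cast this
  refine ⟨fun z => (ℓ : Qb) ^ (c + c') * φ z, ⟨?_, ?_⟩, ?_⟩
  · intro σ z
    simp only [map_mul, map_pow, map_natCast, hφ σ z]
  · apply hc
    intro z
    exact ⟨(ℓ : Qb) ^ c' * φ z, hc' z, by rw [pow_add]; ring⟩
  · intro heq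
    exact hne (mul_left_cancel₀ (pow_ne_zero _ hℓ0) heq)

/-- `A • H` contains `ℓ^c • (all A-valued functions)` -/
theorem exists_conductor_eqvOrder (hA : A.LiesOverPrime ℓ) {Y : Type} [Finite Y] [MulAction Gal Y]
    (hY : IsSmoothAct Y) (Λ : Subalgebra A (Y → Qb)) (hΛ : ∀ φ ∈ Λ, ∀ y, φ y ∈ A) {c : ℕ}
    (hc : ∀ ψ : Y → Qb, (∀ y, DivBy A ℓ c (ψ y)) → ψ ∈ Λ) :
    ∃ c' : ℕ, ∀ ψ : Y → Qb, (∀ y, DivBy A ℓ c' (ψ y)) →
      ψ ∈ Submodule.span A (eqvOrder hA Λ : Set (Y → Qb)) := by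
  obtain ⟨c', hc'⟩ := exists_conductor hA (eqvOrder hA Λ : Set (Y → Qb))
    (fun φ hφ y => hΛ φ hφ.2 y)
    (fun x y hxy => eqvOrder_separates hA hY Λ hc hxy)
  refine ⟨c', fun ψ hψ => ?_⟩
  have h1 := hc' ψ hψ
  have h2 : Subalgebra.toSubmodule (Algebra.adjoin A (eqvOrder hA Λ : Set (Y → Qb))) =
      Submodule.span A (eqvOrder hA Λ : Set (Y → Qb)) := by
    rw [Algebra.adjoin_eq_span]
    congr 1
    exact congrArg _ (Submonoid.closure_eq (eqvOrder hA Λ).toSubsemiring.toSubmonoid)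
  rw [← h2]
  exact h1

end Fermat.Agent.S19
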