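/-
S19-T5 (block T, architect helper92).  Unramified descent by the trace trick.
Sketch of `mem_span_locInv`.  `f > 0` with `gconj (Fr^f) φ = φ` (`exists_pow_gconj_eq`), `w, w'` from
`exists_dual_system`.  `ψ i := ∑_{j<f} gconj (Fr^j) (w' i • φ) = ∑_j (Fr^j (w' i)) • gconj (Fr^j) φ ∈ Λ`
(`frob_mem`).  `gconj Fr (ψ i) = ψ i` (shift `j`, use `Fr^f (w' i) = w' i`, `gconj (Fr^f) φ = φ`).
For `σ` in inertia: `σ * Fr^j = Fr^j * σ'` with `σ' = Fr^-j σ Fr^j` in inertia (`frob_conj_inertia` iterated, or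
`Fermat.Agent.S37.conj_mem_inertiaSubgroupIn`), so `gconj σ` fixes every summand.
Finally `∑_i w i • ψ i = ∑_j (∑_i w i * Fr^j (w' i)) • gconj (Fr^j) φ = φ`.
-/
import Fermat.Agent.S19.T.Conj
import Fermat.Agent.S19.T.Dual

set_option autoImplicit false

namespace Fermat.Agent.S19

open scoped Pointwise

variable {ℓ : ℕ} [Fact ℓ.Prime] {A : ValuationSubring Qb}

omit [Fact ℓ.Prime] in
theorem trace_apply_mem_of_mem_decomp {σ : Gal} (hσ : σ ∈ A.decompositionSubgroup ℚ) {a : Qb}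
    (ha : a ∈ A) : σ a ∈ A := by
  have h1 : σ • A = A := hσ
  have h2 : σ • a ∈ σ • A := ValuationSubring.smul_mem_pointwise_smul σ a A ha
  rw [h1] at h2
  exact h2

theorem trace_conj_mem_inertia_gen {K L : Type*} [Field K] [Field L] [Algebra K L]
    (B : ValuationSubring L) {τ σ : L ≃ₐ[K] L} (hτ : τ ∈ B.decompositionSubgroup K)
    (hσ : σ ∈ B.inertiaSubgroupIn K) : τ * σ * τ⁻¹ ∈ B.inertiaSubgroupIn K := by
  obtain ⟨σ', hσ', rfl⟩ := hσ
  have hn : (B.inertiaSubgroup K).Normal := by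
    rw [ValuationSubring.inertiaSubgroup]; infer_instance
  let τ' : B.decompositionSubgroup K := ⟨τ, hτ⟩
  exact ⟨τ' * σ' * τ'⁻¹, hn.conj_mem σ' hσ' τ', rfl⟩

omit [Fact ℓ.Prime] in
theorem trace_conj_mem_inertia {τ σ : Gal} (hτ : τ ∈ A.decompositionSubgroup ℚ)
    (hσ : σ ∈ A.inertiaSubgroupIn ℚ) : τ * σ * τ⁻¹ ∈ A.inertiaSubgroupIn ℚ :=
  trace_conj_mem_inertia_gen A hτ hσ

omit [Fact ℓ.Prime] in
/-- `Fr` preserves `A` -/
theorem frob_mem {Fr : Gal} (hFr : A.IsFrobeniusAt Fr ℓ) {a : Qb} (ha : a ∈ A) : Fr a ∈ A :=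
  trace_apply_mem_of_mem_decomp hFr.mem_decompositionSubgroup ha

omit [Fact ℓ.Prime] in
/-- inertia is normalised by a Frobenius -/
theorem frob_conj_inertia {Fr : Gal} (hFr : A.IsFrobeniusAt Fr ℓ) {σ : Gal}
    (hσ : σ ∈ A.inertiaSubgroupIn ℚ) : Fr⁻¹ * σ * Fr ∈ A.inertiaSubgroupIn ℚ := by
  have h := trace_conj_mem_inertia (inv_mem hFr.mem_decompositionSubgroup) hσ
  rwa [inv_inv] at h

/-- **unramified descent.** `Λ` an `A`-submodule of functions; `φ` inertia-invariant with all its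
Frobenius conjugates in `Λ`: then `φ` is an `A`-combination of elements of `Λ` invariant under
inertia and Frobenius. -/
theorem mem_span_locInv (hA : A.LiesOverPrime ℓ) {Fr : Gal} (hFr : A.IsFrobeniusAt Fr ℓ)
    {Y : Type} [Finite Y] [MulAction Gal Y] (hY : IsSmoothAct Y)
    (Λ : Submodule A (Y → Qb)) (φ : Y → Qb)
    (hI : ∀ σ ∈ A.inertiaSubgroupIn ℚ, gconj σ φ = φ) (hΛ : ∀ j : ℕ, gconj (Fr ^ j) φ ∈ Λ) :
    φ ∈ Submodule.span A {ψ : Y → Qb | ψ ∈ Λ ∧ IsLocInv A Fr ψ} := by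
  obtain ⟨f, hf, hfφ⟩ := exists_pow_gconj_eq hY Fr φ
  obtain ⟨w, w', hw, hw', hwI, hwF, hdual⟩ := exists_dual_system hA hFr f hf
  have hD : ∀ j : ℕ, Fr ^ j ∈ A.decompositionSubgroup ℚ :=
    fun j => pow_mem hFr.mem_decompositionSubgroup j
  -- the summands
  set g : Fin f → ℕ → Y → Qb := fun i j => gconj (Fr ^ j) (w' i • φ) with hg
  have hg' : ∀ i j, g i j = ((Fr ^ j) (w' i)) • gconj (Fr ^ j) φ := fun i j => gconj_smul _ _ _
  set ψ : Fin f → Y → Qb := fun i => ∑ j ∈ Finset.range f, g i j with hψ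
  have hsm : ∀ (a : Qb) (ha : a ∈ A) (χ : Y → Qb), (⟨a, ha⟩ : A) • χ = a • χ := fun a ha χ => rfl
  have h1 : ∀ i, ψ i ∈ Λ := by
    intro i
    refine Submodule.sum_mem _ fun j _ => ?_
    rw [hg', ← hsm _ (trace_apply_mem_of_mem_decomp (hD j) (hw' i))]
    exact Λ.smul_mem _ (hΛ j)
  have h2 : ∀ i, gconj Fr (ψ i) = ψ i := by
    intro i
    have e1 : gconj Fr (ψ i) = ∑ j ∈ Finset.range f, g i (j + 1) := by
      rw [hψ, gconj_sum]
      refine Finset.sum_congr rfl fun j _ => ?_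
      exact (gconj_pow_succ Fr j _).symm
    have e2 : g i f = g i 0 := by
      rw [hg', hg', hwF, hfφ, pow_zero, gconj_one]
      rfl
    have e3 := Finset.sum_range_succ (g i) f
    have e4 := Finset.sum_range_succ' (g i) f
    rw [e1]
    rw [e3, e2] at e4
    exact (add_right_cancel e4).symm
  have h3 : ∀ i, ∀ σ ∈ A.inertiaSubgroupIn ℚ, gconj σ (ψ i) = ψ i := by
    intro i σ hσ
    rw [hψ, gconj_sum]
    refine Finset.sum_congr rfl fun j _ => ?_
    have hσ' : (Fr ^ j)⁻¹ * σ * Fr ^ j ∈ A.inertiaSubgroupIn ℚ := by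
      have h := trace_conj_mem_inertia (inv_mem (hD j)) hσ
      rwa [inv_inv] at h
    have e1 : σ * Fr ^ j = Fr ^ j * ((Fr ^ j)⁻¹ * σ * Fr ^ j) := by group
    show gconj σ (gconj (Fr ^ j) (w' i • φ)) = gconj (Fr ^ j) (w' i • φ)
    rw [← gconj_mul, e1, gconj_mul, gconj_smul, hwI i _ hσ', hI _ hσ']
  have h4 : φ = ∑ i, w i • ψ i := by
    have e1 : ∀ i, w i • ψ i = ∑ j : Fin f, (w i * (Fr ^ (j : ℕ)) (w' i)) • gconj (Fr ^ (j : ℕ)) φ := by
      intro i
      show w i • ∑ j ∈ Finset.range f, g i j = _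
      rw [Finset.sum_range, Finset.smul_sum]
      refine Finset.sum_congr rfl fun j _ => ?_
      rw [hg', smul_smul]
    simp_rw [e1]
    rw [Finset.sum_comm]
    simp_rw [← Finset.sum_smul, hdual]
    rw [Finset.sum_eq_single (⟨0, hf⟩ : Fin f)]
    · simp [gconj_one]
    · intro j _ hj
      have : (j : ℕ) ≠ 0 := fun h => hj (Fin.ext h)
      rw [if_neg this, zero_smul]
    · intro h
      exact absurd (Finset.mem_univ _) h
  rw [h4]
  refine Submodule.sum_mem _ fun i _ => ?_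
  rw [← hsm _ (hw i)]
  exact Submodule.smul_mem _ _ (Submodule.subset_span ⟨h1 i, h3 i, h2 i⟩)

end Fermat.Agent.S19
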