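/-
S19-T14 (block T, owner helper92).  DESCENT: `A[S] = A • H`, `H := {equivariant} ∩ A[S]`.
-/
import Fermat.Agent.S19.T.Trace
import Fermat.Agent.S19.T.Average
import Fermat.Agent.S19.T.Order

set_option autoImplicit false

namespace Fermat.Agent.S19

variable {ℓ : ℕ} [Fact ℓ.Prime] {A : ValuationSubring Qb}

/-- monomials in `S` are inertia invariant and their Frobenius conjugates are monomials -/
theorem closure_gconj {Y : Type} [MulAction Gal Y] {Fr : Gal} (S : Set (Y → Qb))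
    (hI : ∀ φ ∈ S, ∀ σ ∈ A.inertiaSubgroupIn ℚ, gconj σ φ = φ) (hF : ∀ φ ∈ S, gconj Fr φ ∈ S)
    {m : Y → Qb} (hm : m ∈ Submonoid.closure S) :
    (∀ σ ∈ A.inertiaSubgroupIn ℚ, gconj σ m = m) ∧
      ∀ j : ℕ, gconj (Fr ^ j) m ∈ Submonoid.closure S := by
  constructor
  · intro σ hσ
    induction hm using Submonoid.closure_induction with
    | mem x hx => exact hI x hx σ hσ
    | one => exact gconj_one_fun σ
    | mul x y _ _ hx hy => rw [gconj_mul_fun, hx, hy]
  · have h1 : ∀ m ∈ Submonoid.closure S, gconj Fr m ∈ Submonoid.closure S := by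
      intro m hm
      induction hm using Submonoid.closure_induction with
      | mem x hx => exact Submonoid.subset_closure (hF x hx)
      | one => rw [gconj_one_fun]; exact one_mem _
      | mul x y _ _ hx hy => rw [gconj_mul_fun]; exact mul_mem hx hy
    intro j
    induction j with
    | zero => rw [pow_zero, gconj_one]; exact hm
    | succ j ih => rw [gconj_pow_succ]; exact h1 _ ih

/-- **DESCENT.** -/
theorem adjoin_le_span_eqvOrder (hA : A.LiesOverPrime ℓ) {Fr : Gal} (hFr : A.IsFrobeniusAt Fr ℓ)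
    {Y : Type} [Finite Y] [MulAction Gal Y] (hY : IsSmoothAct Y) (S : Set (Y → Qb))
    (h0 : ∀ φ ∈ S, ∀ y, φ y ∈ A)
    (hI : ∀ φ ∈ S, ∀ σ ∈ A.inertiaSubgroupIn ℚ, gconj σ φ = φ) (hF : ∀ φ ∈ S, gconj Fr φ ∈ S)
    (hsep : ∀ x y : Y, x ≠ y → ∃ φ ∈ S, φ x ≠ φ y) {φ : Y → Qb} (hφ : φ ∈ Algebra.adjoin A S) :
    φ ∈ Submodule.span A (eqvOrder hA (Algebra.adjoin A S) : Set (Y → Qb)) := by
  set Λ := Algebra.adjoin A S with hΛdef
  have hΛA : ∀ φ ∈ Λ, ∀ y, φ y ∈ A := fun φ hφ y => adjoin_mem_val S h0 hφ y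
  obtain ⟨c, hc⟩ := exists_conductor hA S h0 hsep
  obtain ⟨c', hc'⟩ := exists_conductor_eqvOrder hA hY Λ hΛA hc
  -- locally invariant elements
  have step3 : ∀ ψ : Y → Qb, ψ ∈ Λ → IsLocInv A Fr ψ →
      ψ ∈ Submodule.span A (eqvOrder hA Λ : Set (Y → Qb)) := by
    intro ψ hψ hinv
    obtain ⟨ψ', hψ'e, hψ'⟩ := exists_isEqv_approx hA hFr hY ψ (hΛA ψ hψ) hinv (max c c')
    have hd1 : ψ - ψ' ∈ Λ := hc _ fun y => (hψ' y).mono (le_max_left c c')
    have hd2 : ψ - ψ' ∈ Submodule.span A (eqvOrder hA Λ : Set (Y → Qb)) :=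
      hc' _ fun y => (hψ' y).mono (le_max_right c c')
    have hψ'Λ : ψ' ∈ Λ := by
      have := Λ.sub_mem hψ hd1
      rwa [sub_sub_cancel] at this
    have hψ'H : ψ' ∈ Submodule.span A (eqvOrder hA Λ : Set (Y → Qb)) :=
      Submodule.subset_span ((mem_eqvOrder hA Λ ψ').2 ⟨hψ'e, hψ'Λ⟩)
    have := Submodule.add_mem _ hψ'H hd2
    rwa [add_sub_cancel] at this
  -- monomials
  have step2 : ∀ m ∈ Submonoid.closure S,
      m ∈ Submodule.span A (eqvOrder hA Λ : Set (Y → Qb)) := by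
    intro m hm
    obtain ⟨hmI, hmF⟩ := closure_gconj (A := A) (Fr := Fr) S hI hF hm
    have hcl : ∀ m' ∈ Submonoid.closure S, m' ∈ Subalgebra.toSubmodule Λ := by
      intro m' hm'
      rw [hΛdef, Algebra.adjoin_eq_span]
      exact Submodule.subset_span hm'
    have h1 := mem_span_locInv hA hFr hY (Subalgebra.toSubmodule Λ) m hmI
      (fun j => hcl _ (hmF j))
    refine (Submodule.span_le.2 ?_) h1
    rintro ψ ⟨hψΛ, hψinv⟩
    exact step3 ψ hψΛ hψinv
  have h4 : φ ∈ Subalgebra.toSubmodule Λ := hφ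
  rw [hΛdef, Algebra.adjoin_eq_span] at h4
  exact (Submodule.span_le.2 step2) h4

end Fermat.Agent.S19
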