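/-
S19-T12 (block T, architect helper92).  Descent of coefficients from `A` to `ℤ_(ℓ)`.
Sketch.  `N` is finitely generated and torsion free over the PID `Rl ℓ`, hence free with a finite basis `g k`
(`Module.free_of_finite_type_torsion_free'`; torsion free because `Qb` has characteristic zero).  The `g k` are linearly independent
over `Qb` (`linearIndependent_of_equivariant'`).  `span A N = span A (range g)`, so `θ = ∑ a_k • g k` with `a_k ∈ A`.  For `σ : Gal`,
`θ = gconj σ θ = ∑ σ a_k • g k`, so `σ a_k = a_k`; `a_k = algebraMap ℚ Qb q_k` (`exists_rat_of_fixed`), `q_k ∈ Rl ℓ`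
(`algebraMap_rat_mem_iff`), so `θ = ∑ q_k • g k ∈ N`.
-/
import Fermat.Agent.S19.T.Val
import Fermat.Agent.S19.T.Conj
import Fermat.Agent.S19.BaseRing
import Fermat.Agent.S19.Descent

set_option autoImplicit false

namespace Fermat.Agent.S19

open scoped Pointwise

variable {ℓ : ℕ} [Fact ℓ.Prime] {A : ValuationSubring Qb}

omit [Fact ℓ.Prime] in
theorem coeff_smul_apply {Y : Type} (r : Rl ℓ) (φ : Y → Qb) (y : Y) :
    (r • φ) y = algebraMap ℚ Qb (r : ℚ) * φ y := by
  rw [Pi.smul_apply, Algebra.smul_def]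
  rfl

theorem mem_of_mem_span_of_isEqv (hA : A.LiesOverPrime ℓ) {Y : Type} [MulAction Gal Y]
    (N : Submodule (Rl ℓ) (Y → Qb)) (hfg : N.FG) (heq : ∀ φ ∈ N, IsEqv φ) {θ : Y → Qb}
    (hθ : IsEqv θ) (hmem : θ ∈ Submodule.span A (N : Set (Y → Qb))) : θ ∈ N := by
  classical
  have hpid : IsPrincipalIdealRing (Rl ℓ) := Rl_isPrincipalIdealRing ℓ
  have hfin : Module.Finite (Rl ℓ) N := Module.Finite.iff_fg.2 hfg
  have htf : Module.IsTorsionFree (Rl ℓ) N := by
    refine Module.IsTorsionFree.of_smul_eq_zero fun r m hrm => ?_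
    by_cases hr : r = 0
    · exact Or.inl hr
    · right
      apply Subtype.ext
      funext x
      have h1 : (r • (m : Y → Qb)) x = 0 := congrFun (congrArg Subtype.val hrm) x
      rw [coeff_smul_apply] at h1
      have h2 : algebraMap ℚ Qb (r : ℚ) ≠ 0 := by
        intro h0
        exact hr (Subtype.ext ((algebraMap ℚ Qb).injective (h0.trans (map_zero _).symm)))
      exact (mul_eq_zero.1 h1).resolve_left h2
  have hfree : Module.Free (Rl ℓ) N := Module.free_of_finite_type_torsion_free'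
  let b := Module.finBasis (Rl ℓ) N
  set g : Fin (Module.finrank (Rl ℓ) N) → Y → Qb := fun k => ((b k : N) : Y → Qb) with hg
  have hgN : ∀ k, g k ∈ N := fun k => (b k).2
  have hli : LinearIndependent (Rl ℓ) g :=
    b.linearIndependent.map' N.subtype (Submodule.ker_subtype N)
  have hliQ : LinearIndependent Qb g :=
    linearIndependent_of_equivariant' ℓ g (fun k σ w => heq _ (hgN k) σ w) hli
  -- coefficients in `A`
  have hcoef : ∃ a : Fin (Module.finrank (Rl ℓ) N) → Qb, (∀ k, a k ∈ A) ∧ θ = ∑ k, a k • g k := by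
    refine Submodule.span_induction (p := fun θ _ => ∃ a : Fin (Module.finrank (Rl ℓ) N) → Qb,
      (∀ k, a k ∈ A) ∧ θ = ∑ k, a k • g k) ?_ ?_ ?_ ?_ hmem
    · intro φ hφ
      refine ⟨fun k => algebraMap ℚ Qb ((b.repr ⟨φ, hφ⟩ k : Rl ℓ) : ℚ),
        fun k => (algebraMap_rat_mem_iff hA _).2 (b.repr ⟨φ, hφ⟩ k).2, ?_⟩
      have h1 := b.sum_repr ⟨φ, hφ⟩
      have h2 := congrArg (fun x : N => (x : Y → Qb)) h1
      simp only [Submodule.coe_sum, Submodule.coe_smul] at h2
      refine h2.symm.trans ?_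
      refine Finset.sum_congr rfl fun k _ => ?_
      funext y
      rw [coeff_smul_apply, Pi.smul_apply, smul_eq_mul]
    · exact ⟨fun _ => 0, fun _ => A.zero_mem, by simp⟩
    · rintro x y _ _ ⟨a, ha, rfl⟩ ⟨a', ha', rfl⟩
      exact ⟨fun k => a k + a' k, fun k => A.add_mem _ _ (ha k) (ha' k), by
        simp only [add_smul, Finset.sum_add_distrib]⟩
    · rintro c x _ ⟨a, ha, rfl⟩
      refine ⟨fun k => (c : Qb) * a k, fun k => A.mul_mem _ _ c.2 (ha k), ?_⟩
      rw [Finset.smul_sum]
      refine Finset.sum_congr rfl fun k _ => ?_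
      rw [mul_smul]
      rfl
  obtain ⟨a, haA, rfl⟩ := hcoef
  -- the coefficients are Galois invariant
  have hfix : ∀ (σ : Gal) k, σ (a k) = a k := by
    intro σ
    have hzero : ∑ k, (a k - σ (a k)) • g k = 0 := by
      funext z
      have h1 := hθ σ (σ⁻¹ • z)
      rw [smul_inv_smul] at h1
      simp only [Finset.sum_apply, Pi.smul_apply, smul_eq_mul, map_sum, map_mul] at h1
      simp only [Finset.sum_apply, Pi.smul_apply, smul_eq_mul, Pi.zero_apply, sub_mul,
        Finset.sum_sub_distrib]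
      rw [h1, sub_eq_zero]
      refine Finset.sum_congr rfl fun k _ => ?_
      have h2 := heq _ (hgN k) σ (σ⁻¹ • z)
      rw [smul_inv_smul] at h2
      rw [h2]
    intro k
    have := Fintype.linearIndependent_iff.1 hliQ _ hzero k
    exact (sub_eq_zero.1 this).symm
  have hq : ∀ k, ∃ q : ℚ, algebraMap ℚ Qb q = a k := fun k =>
    exists_rat_of_fixed (a k) fun σ => hfix σ k
  choose q hq using hq
  have hqR : ∀ k, q k ∈ Rl ℓ := fun k => (algebraMap_rat_mem_iff hA _).1 (by rw [hq k]; exact haA k)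
  have : ∑ k, a k • g k = ∑ k, (⟨q k, hqR k⟩ : Rl ℓ) • g k := by
    refine Finset.sum_congr rfl fun k _ => ?_
    funext y
    rw [coeff_smul_apply, Pi.smul_apply, smul_eq_mul, hq k]
  rw [this]
  exact Submodule.sum_mem _ fun k _ => N.smul_mem _ (hgN k)

end Fermat.Agent.S19
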