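/-
S19-T13 (block T, architect helper92).  Comultiplication at the level of `A`-algebras; formal lemmas on `prodFun`.
Sketches.
* `comul_mem_adjoin`: `pull SS` is `A`-valued and separates the points of `X × X`; `c` from `exists_conductor`.  For `φ ∈ SS`,
  `hmul φ _ c` gives `ψ ∈ adjoin A (pull SS)` with `μ^*φ - ψ ∈ ℓ^c (X × X → A) ≤ adjoin`, so `μ^*φ ∈ adjoin`.
  `μ^* : (X → Qb) →ₐ[A] (X × X → Qb)` is an algebra hom (`AlgHom.pi fun q => Pi.evalAlgHom A _ (q.1 + q.2)`), so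
  `adjoin A SS ≤ (adjoin A (pull SS)).comap μ^*` by `Algebra.adjoin_le`.
* `adjoin_pull_le`: the span of `prodFun Λ Λ` is closed under products and contains `1` and `pull SS`: `Algebra.adjoin_induction`.
* `span_prodFun_le`: bilinearity (`Submodule.span_induction` twice).
* `span_prodFun_fg`: if `H = span (finite set G)` then `span (prodFun H H) = span {a ⊗ b | a, b ∈ G}`.
* `isEqv_of_mem_span_prodFun`: span induction; scalars are rational.
-/
import Fermat.Agent.S19.T.Conductor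
import Fermat.Agent.S19.T.Conj

set_option autoImplicit false

namespace Fermat.Agent.S19

open scoped Pointwise

variable {ℓ : ℕ} [Fact ℓ.Prime] {A : ValuationSubring Qb}

/-- the bilinear map `(a, b) ↦ ((x, y) ↦ a x * b y)` -/
noncomputable def comulTens (R : Type) [CommRing R] [Algebra R Qb] (X : Type) :
    (X → Qb) →ₗ[R] (X → Qb) →ₗ[R] (X × X → Qb) :=
  LinearMap.mk₂ R (fun a b q => a q.1 * b q.2)
    (fun a a' b => by ext q; simp [add_mul])
    (fun c a b => by ext q; simp)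
    (fun a b b' => by ext q; simp [mul_add])
    (fun c a b => by ext q; simp)

theorem comulTens_apply (R : Type) [CommRing R] [Algebra R Qb] (X : Type) (a b : X → Qb) :
    comulTens R X a b = fun q => a q.1 * b q.2 := rfl

theorem comul_prodFun_eq_image2 {R : Type} [CommRing R] [Algebra R Qb] {X : Type}
    (H H' : Subalgebra R (X → Qb)) :
    prodFun H H' = Set.image2 (fun a b => comulTens R X a b) (H : Set (X → Qb)) H' := by
  ext F
  constructor
  · rintro ⟨a, ha, b, hb, rfl⟩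
    exact ⟨a, ha, b, hb, rfl⟩
  · rintro ⟨a, ha, b, hb, rfl⟩
    exact ⟨a, ha, b, hb, rfl⟩

theorem comul_span_prodFun_eq_map₂ {R : Type} [CommRing R] [Algebra R Qb] {X : Type}
    (H H' : Subalgebra R (X → Qb)) :
    Submodule.span R (prodFun H H') =
      Submodule.map₂ (comulTens R X) (Subalgebra.toSubmodule H) (Subalgebra.toSubmodule H') := by
  rw [comul_prodFun_eq_image2, Submodule.map₂_eq_span_image2]
  rfl

theorem comul_mem_adjoin (hA : A.LiesOverPrime ℓ) {X : Type} [AddCommGroup X] [Finite X]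
    (SS : Set (X → Qb)) (h0 : ∀ φ ∈ SS, ∀ x, φ x ∈ A)
    (hsep : ∀ x y : X, x ≠ y → ∃ φ ∈ SS, φ x ≠ φ y)
    (hmul : ∀ φ ∈ SS, ∀ M : ℕ, ∃ ψ ∈ Algebra.adjoin A (pull SS),
      ∀ x y, DivBy A ℓ M (φ (x + y) - ψ (x, y)))
    {φ : X → Qb} (hφ : φ ∈ Algebra.adjoin A SS) :
    (fun q : X × X => φ (q.1 + q.2)) ∈ Algebra.adjoin A (pull SS) := by
  have h0' : ∀ ψ ∈ pull SS, ∀ q, ψ q ∈ A := by
    rintro ψ ⟨φ, hφ, rfl | rfl⟩ q
    · exact h0 φ hφ _
    · exact h0 φ hφ _
  have hsep' : ∀ q q' : X × X, q ≠ q' → ∃ ψ ∈ pull SS, ψ q ≠ ψ q' := by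
    intro q q' hne
    by_cases h1 : q.1 = q'.1
    · have h2 : q.2 ≠ q'.2 := fun h2 => hne (Prod.ext h1 h2)
      obtain ⟨φ, hφ, hne'⟩ := hsep _ _ h2
      exact ⟨fun q => φ q.2, ⟨φ, hφ, Or.inr rfl⟩, hne'⟩
    · obtain ⟨φ, hφ, hne'⟩ := hsep _ _ h1
      exact ⟨fun q => φ q.1, ⟨φ, hφ, Or.inl rfl⟩, hne'⟩
  obtain ⟨c, hc⟩ := exists_conductor hA (pull SS) h0' hsep'
  let μs : (X → Qb) →ₐ[A] (X × X → Qb) :=
    AlgHom.pi fun q : X × X => Pi.evalAlgHom A (fun _ : X => Qb) (q.1 + q.2)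
  have hle : Algebra.adjoin A SS ≤ (Algebra.adjoin A (pull SS)).comap μs := by
    apply Algebra.adjoin_le
    intro φ hφ
    show μs φ ∈ Algebra.adjoin A (pull SS)
    obtain ⟨ψ, hψ, hd⟩ := hmul φ hφ c
    have h1 : μs φ - ψ ∈ Algebra.adjoin A (pull SS) := hc _ fun q => hd q.1 q.2
    have h2 := (Algebra.adjoin A (pull SS)).add_mem h1 hψ
    rwa [sub_add_cancel] at h2
  exact hle hφ

theorem adjoin_pull_le {X : Type} (SS : Set (X → Qb)) {θ : X × X → Qb}
    (hθ : θ ∈ Algebra.adjoin A (pull SS)) :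
    θ ∈ Submodule.span A (prodFun (Algebra.adjoin A SS) (Algebra.adjoin A SS)) := by
  set Λ := Algebra.adjoin A SS with hΛ
  induction hθ using Algebra.adjoin_induction with
  | mem ψ hψ =>
    apply Submodule.subset_span
    obtain ⟨φ, hφ, rfl | rfl⟩ := hψ
    · exact ⟨φ, Algebra.subset_adjoin hφ, 1, Λ.one_mem, by ext q; simp⟩
    · exact ⟨1, Λ.one_mem, φ, Algebra.subset_adjoin hφ, by ext q; simp⟩
  | algebraMap c =>
    rw [Algebra.algebraMap_eq_smul_one]
    apply Submodule.smul_mem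
    apply Submodule.subset_span
    exact ⟨1, Λ.one_mem, 1, Λ.one_mem, by ext q; simp⟩
  | add a b _ _ ha hb => exact Submodule.add_mem _ ha hb
  | mul a b _ _ ha hb =>
    have h1 := Submodule.mul_mem_mul ha hb
    rw [Submodule.span_mul_span] at h1
    refine Submodule.span_mono ?_ h1
    rw [Set.mul_subset_iff]
    rintro _ ⟨a, ha, b, hb, rfl⟩ _ ⟨a', ha', b', hb', rfl⟩
    refine ⟨a * a', Λ.mul_mem ha ha', b * b', Λ.mul_mem hb hb', ?_⟩
    ext q
    simp only [Pi.mul_apply]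
    ring

omit [Fact ℓ.Prime] in
theorem span_prodFun_le {X : Type} (Λ : Subalgebra A (X → Qb)) (H : Subalgebra (Rl ℓ) (X → Qb))
    (h : ∀ φ ∈ Λ, φ ∈ Submodule.span A (H : Set (X → Qb))) {θ : X × X → Qb}
    (hθ : θ ∈ Submodule.span A (prodFun Λ Λ)) :
    θ ∈ Submodule.span A ((Submodule.span (Rl ℓ) (prodFun H H) : Submodule (Rl ℓ) (X × X → Qb)) :
      Set (X × X → Qb)) := by
  refine Submodule.span_le.mpr ?_ hθ
  rintro _ ⟨a, ha, b, hb, rfl⟩
  have h1 : comulTens A X a b ∈ Submodule.map₂ (comulTens A X)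
      (Submodule.span A (H : Set (X → Qb))) (Submodule.span A (H : Set (X → Qb))) :=
    Submodule.apply_mem_map₂ _ (h a ha) (h b hb)
  rw [Submodule.map₂_span_span] at h1
  refine Submodule.span_mono ?_ h1
  rintro _ ⟨a, ha, b, hb, rfl⟩
  exact Submodule.subset_span ⟨a, ha, b, hb, rfl⟩

omit [Fact ℓ.Prime] in
theorem span_prodFun_fg {X : Type} (H : Subalgebra (Rl ℓ) (X → Qb))
    (h : (Subalgebra.toSubmodule H).FG) : (Submodule.span (Rl ℓ) (prodFun H H)).FG := by
  rw [comul_span_prodFun_eq_map₂]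
  exact Submodule.FG.map₂ _ h h

omit [Fact ℓ.Prime] in
theorem isEqv_of_mem_span_prodFun {X : Type} [MulAction Gal X] (H : Subalgebra (Rl ℓ) (X → Qb))
    (h : ∀ φ ∈ H, IsEqv φ) {θ : X × X → Qb} (hθ : θ ∈ Submodule.span (Rl ℓ) (prodFun H H)) :
    IsEqv θ := by
  induction hθ using Submodule.span_induction with
  | mem θ hθ =>
    obtain ⟨a, ha, b, hb, rfl⟩ := hθ
    intro σ q
    show a (σ • q.1) * b (σ • q.2) = σ (a q.1 * b q.2)
    rw [h a ha σ, h b hb σ, map_mul]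
  | zero =>
    intro σ q
    simp
  | add a b _ _ ha hb =>
    intro σ q
    rw [Pi.add_apply, Pi.add_apply, ha σ q, hb σ q, map_add]
  | smul r a _ ha =>
    intro σ q
    rw [Pi.smul_apply, Pi.smul_apply, ha σ q, Algebra.smul_def, Algebra.smul_def, map_mul]
    congr 1
    exact (σ.commutes (r : ℚ)).symm

end Fermat.Agent.S19
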