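/-
S19-T15 (block T, owner helper92).  THEOREM T: a local function order descends to a Hopf order over `ℤ_(ℓ)`.
-/
import Fermat.Agent.S19.T.Descent
import Fermat.Agent.S19.T.Coeff
import Fermat.Agent.S19.T.Comul

set_option autoImplicit false

namespace Fermat.Agent.S19

variable {ℓ : ℕ} [Fact ℓ.Prime] {A : ValuationSubring Qb}

/-- **THEOREM T.**  `X` a finite Galois module (open stabilisers), `A` a valuation ring of `ℚ̄` over `ℓ`, `Fr` a
Frobenius at `A`, `SS` a set of `A`-valued functions on `X`: inertia-equivariant, stable under `Fr`,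
separating points, and such that `φ (x + y)` is approximated modulo every `ℓ^M` by polynomials with
coefficients in `A` in the functions `ψ x`, `ψ y` (`ψ ∈ SS`).  Then `X` has a Hopf order over `ℤ_(ℓ)`. -/
theorem hasHopfOrder_of_local {X : Type} [AddCommGroup X] [Finite X] [DistribMulAction Gal X]
    (hX : IsSmoothAct X) (hA : A.LiesOverPrime ℓ) {Fr : Gal} (hFr : A.IsFrobeniusAt Fr ℓ)
    (SS : Set (X → Qb)) (h0 : ∀ φ ∈ SS, ∀ x, φ x ∈ A)
    (hI : ∀ φ ∈ SS, ∀ σ ∈ A.inertiaSubgroupIn ℚ, ∀ x, φ (σ • x) = σ (φ x))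
    (hF : ∀ φ ∈ SS, gconj Fr φ ∈ SS)
    (hsep : ∀ x y : X, x ≠ y → ∃ φ ∈ SS, φ x ≠ φ y)
    (hmul : ∀ φ ∈ SS, ∀ M : ℕ, ∃ ψ ∈ Algebra.adjoin A (pull SS),
      ∀ x y, DivBy A ℓ M (φ (x + y) - ψ (x, y))) :
    HasHopfOrder ℓ X := by
  set Λ := Algebra.adjoin A SS with hΛdef
  have hΛA : ∀ φ ∈ Λ, ∀ y, φ y ∈ A := fun φ hφ y => adjoin_mem_val SS h0 hφ y
  obtain ⟨c, hc⟩ := exists_conductor hA SS h0 hsep
  have hI' : ∀ φ ∈ SS, ∀ σ ∈ A.inertiaSubgroupIn ℚ, gconj σ φ = φ :=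
    fun φ hφ σ hσ => (gconj_eq_self_iff σ φ).2 (hI φ hφ σ hσ)
  set H := eqvOrder hA Λ with hHdef
  have hfg : (Subalgebra.toSubmodule H).FG := eqvOrder_fg hA Λ hΛA
  have hHeq : ∀ φ ∈ H, IsEqv φ := fun φ hφ => ((mem_eqvOrder hA Λ φ).1 hφ).1
  refine ⟨H, hHeq, hfg, fun x y hxy => eqvOrder_separates hA hX Λ hc hxy, ?_⟩
  intro φ hφ
  obtain ⟨hφe, hφΛ⟩ := (mem_eqvOrder hA Λ φ).1 hφ
  have h1 := comul_mem_adjoin hA SS h0 hsep hmul hφΛ
  have h2 := adjoin_pull_le SS h1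
  have h3 := span_prodFun_le Λ H
    (fun ψ hψ => adjoin_le_span_eqvOrder hA hFr hX SS h0 hI' hF hsep hψ) h2
  refine mem_of_mem_span_of_isEqv hA _ (span_prodFun_fg H hfg)
    (fun θ hθ => isEqv_of_mem_span_prodFun H hHeq hθ) ?_ h3
  intro σ q
  change φ (σ • q.1 + σ • q.2) = σ (φ (q.1 + q.2))
  rw [← smul_add, hφe]

end Fermat.Agent.S19
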