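/-
S19-T3 (block T, architect helper92).  Conductor of a point-separating algebra of `A`-valued functions.
Sketch of `exists_conductor`.  `Λ := Algebra.adjoin A S`.  For `x ≠ y` choose `φ_{xy} ∈ S` with different values.
`P_x := ∏_{y ≠ x} (φ_{xy} - const (φ_{xy} y)) ∈ Λ` (constants with value in `A` are `algebraMap A _ ⟨_, _⟩`)
vanishes off `x` and `d_x := P_x x ≠ 0`.  By `exists_pow_mul_mem_finite` there is `c` with `ℓ^c * d_x⁻¹ ∈ A` for all `x`.
If all values of `ψ` are `ℓ^c * a_y`, `a_y ∈ A`, then `ψ = ∑_x (a_x * (ℓ^c * d_x⁻¹)) • P_x ∈ Λ`.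
`adjoin_mem_val`: `Algebra.adjoin_induction` (or: the `A`-valued functions form a subalgebra containing `S`).
-/
import Fermat.Agent.S19.T.Val

set_option autoImplicit false

namespace Fermat.Agent.S19

open scoped Pointwise

variable {ℓ : ℕ} [Fact ℓ.Prime] {A : ValuationSubring Qb}

/-- a point-separating set of `A`-valued functions generates an `A`-algebra containing
`ℓ^c • (all A-valued functions)` -/
theorem exists_conductor (hA : A.LiesOverPrime ℓ) {Y : Type} [Finite Y] (S : Set (Y → Qb))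
    (h0 : ∀ φ ∈ S, ∀ y, φ y ∈ A) (hsep : ∀ x y : Y, x ≠ y → ∃ φ ∈ S, φ x ≠ φ y) :
    ∃ c : ℕ, ∀ ψ : Y → Qb, (∀ y, DivBy A ℓ c (ψ y)) → ψ ∈ Algebra.adjoin A S := by
  classical
  have := Fintype.ofFinite Y
  choose! φ hφ using hsep
  have hconst : ∀ a ∈ A, (fun _ : Y => a) ∈ Algebra.adjoin A S := fun a ha =>
    (Algebra.adjoin A S).algebraMap_mem (⟨a, ha⟩ : A)
  let P : Y → Y → Qb := fun x => ∏ y ∈ Finset.univ.erase x, (φ x y - fun _ => φ x y y)
  have hPmem : ∀ x, P x ∈ Algebra.adjoin A S := by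
    intro x
    refine Subalgebra.prod_mem _ fun y hy => ?_
    have hne : x ≠ y := (Finset.ne_of_mem_erase hy).symm
    exact Subalgebra.sub_mem _ (Algebra.subset_adjoin (hφ x y hne).1)
      (hconst _ (h0 _ (hφ x y hne).1 y))
  have hPapp : ∀ x z, P x z = ∏ y ∈ Finset.univ.erase x, (φ x y z - φ x y y) := by
    intro x z
    simp only [P, Finset.prod_apply, Pi.sub_apply]
  have hPoff : ∀ x z, z ≠ x → P x z = 0 := by
    intro x z hz
    rw [hPapp]
    exact Finset.prod_eq_zero (Finset.mem_erase.2 ⟨hz, Finset.mem_univ z⟩) (sub_self _)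
  have hPne : ∀ x, P x x ≠ 0 := by
    intro x
    rw [hPapp, Finset.prod_ne_zero_iff]
    intro y hy
    exact sub_ne_zero.2 (hφ x y (Finset.ne_of_mem_erase hy).symm).2
  obtain ⟨c, hc⟩ := exists_pow_mul_mem_finite hA (fun x => (P x x)⁻¹)
  refine ⟨c, fun ψ hψ => ?_⟩
  choose a ha hψa using hψ
  have hsum : ψ = ∑ x, (fun _ : Y => a x * ((ℓ : Qb) ^ c * (P x x)⁻¹)) * P x := by
    funext z
    rw [Finset.sum_apply, Finset.sum_eq_single z]
    · rw [Pi.mul_apply, hψa z]
      field_simp [hPne z]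
    · intro x _ hx
      rw [Pi.mul_apply, hPoff x z hx.symm, mul_zero]
    · intro hz
      exact absurd (Finset.mem_univ z) hz
  rw [hsum]
  exact Subalgebra.sum_mem _ fun x _ =>
    Subalgebra.mul_mem _ (hconst _ (A.mul_mem _ _ (ha x) (hc x))) (hPmem x)

theorem adjoin_mem_val {Y : Type} (S : Set (Y → Qb)) (h0 : ∀ φ ∈ S, ∀ y, φ y ∈ A)
    {ψ : Y → Qb} (hψ : ψ ∈ Algebra.adjoin A S) (y : Y) : ψ y ∈ A := by
  induction hψ using Algebra.adjoin_induction with
  | mem x hx => exact h0 x hx y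
  | algebraMap r => exact r.2
  | add x z _ _ hx hz => exact A.add_mem _ _ hx hz
  | mul x z _ _ hx hz => exact A.mul_mem _ _ hx hz

end Fermat.Agent.S19
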